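/-
S55 (Poitou-Tate), block HENS: number fields `N` with an embedding into `Qbar`
(`[Algebra N Qbar]`), their Galois groups `Vof N ≤ GQ`, the place `plOf N 𝒜` of `N` below a finite
place `𝒜` of `Qbar`, comparison of `ord (plOf N 𝒜)` (language of `Fermat/Agent/CFT`) with
`𝒜.valuation`.
-/
import Fermat.Agent.PT.Gal.Setup
import Fermat.Agent.CFT.OrdGal
import Fermat.Agent.CFT.OrdApprox
import Fermat.Agent.CFT.Lift

set_option autoImplicit false

open NumberField IsDedekindDomain Fermat.Agent.CFT Fermat.Agent.Lib.Frobenius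

noncomputable section

namespace Fermat.Agent.PT

section Vof

variable (N : Type*) [Field N] [Algebra N Qbar]

/-- The subgroup `Gal(Qbar/N) ≤ GQ` of a field `N` embedded in `Qbar`. -/
def Vof : Subgroup GQ where
  carrier := {g | ∀ x : N, g (algebraMap N Qbar x) = algebraMap N Qbar x}
  mul_mem' := by
    intro a b ha hb x
    rw [AlgEquiv.mul_apply, hb x, ha x]
  one_mem' := fun _ => rfl
  inv_mem' := by
    intro a ha x
    change a.symm _ = _
    rw [AlgEquiv.symm_apply_eq]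
    exact (ha x).symm

variable {N}

theorem mem_Vof {g : GQ} : g ∈ Vof N ↔ ∀ x : N, g (algebraMap N Qbar x) = algebraMap N Qbar x :=
  Iff.rfl

theorem Vof_intermediateField (K : IntermediateField ℚ Qbar) : Vof K = K.fixingSubgroup := by
  ext g
  rw [mem_Vof, IntermediateField.mem_fixingSubgroup_iff]
  exact ⟨fun h x hx => h ⟨x, hx⟩, fun h x => h x x.2⟩

theorem Vof_le_of_tower (N' : Type*) [Field N'] [Algebra N' Qbar] [Algebra N N']
    [IsScalarTower N N' Qbar] : Vof N' ≤ Vof N := by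
  intro g hg x
  rw [IsScalarTower.algebraMap_apply N N' Qbar]
  exact hg _

end Vof

section plOf

variable (N : Type*) [Field N] [NumberField N] [Algebra N Qbar]

/-- The place of the number field `N ⊆ Qbar` below the finite place `𝒜` of `Qbar`. -/
def plOf (𝒜 : Place) (h : 𝒜.IsFin) : Pl N where
  asIdeal := (centre 𝒜).comap (Lift.toInt Qbar N)
  isPrime := Ideal.comap_isPrime _ _
  ne_bot := by
    obtain ⟨q, hq⟩ := h
    intro h0
    have h1 : ((q : ℕ) : 𝓞 N) ∈ (centre 𝒜).comap (Lift.toInt Qbar N) := by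
      rw [Ideal.mem_comap, mem_centre]
      change algebraMap N Qbar (((q : ℕ) : 𝓞 N) : N) ∈ 𝒜.nonunits
      have hq' : (((q : ℕ) : ℕ) : Qbar) ∈ 𝒜.nonunits := hq
      simpa using hq'
    rw [h0, Ideal.mem_bot] at h1
    have h2 : ((q : ℕ) : 𝓞 N) ≠ 0 := Nat.cast_ne_zero.mpr q.2.ne_zero
    exact h2 h1

variable {N} {𝒜 : Place} (h : 𝒜.IsFin)

theorem mem_plOf (x : 𝓞 N) :
    x ∈ (plOf N 𝒜 h).asIdeal ↔ algebraMap N Qbar (x : N) ∈ 𝒜.nonunits := by
  change x ∈ (centre 𝒜).comap (Lift.toInt Qbar N) ↔ _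
  rw [Ideal.mem_comap, mem_centre]
  rfl

theorem above_plOf : Lift.Above 𝒜 (plOf N 𝒜 h).asIdeal := mem_plOf h

omit [NumberField N] in
theorem algebraMap_int_mem (𝒜 : Place) (x : 𝓞 N) : algebraMap N Qbar (x : N) ∈ 𝒜 :=
  mem_of_isIntegral 𝒜 (map_isIntegral_int (algebraMap N Qbar) (RingOfIntegers.isIntegral_coe x))

theorem algebraMap_mem_of_ord_nonneg {x : N} (hx : 0 ≤ ord (plOf N 𝒜 h) x) :
    algebraMap N Qbar x ∈ 𝒜 := by
  obtain ⟨a, b, hb, rfl⟩ := exists_div_not_mem _ hx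
  rw [map_div₀, div_eq_mul_inv]
  refine 𝒜.mul_mem _ _ (algebraMap_int_mem 𝒜 a) (inv_mem_of_not_mem_nonunits 𝒜 ?_)
  rwa [← mem_plOf h]

theorem algebraMap_mem_nonunits_of_ord_pos {x : N} (hx : 0 < ord (plOf N 𝒜 h) x) :
    algebraMap N Qbar x ∈ 𝒜.nonunits := by
  obtain ⟨a, b, hb, rfl⟩ := exists_div_not_mem _ hx.le
  have hb0 : (b : N) ≠ 0 := by
    intro h0
    apply hb
    have : b = 0 := RingOfIntegers.ext h0
    rw [this]
    exact Ideal.zero_mem _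
  have ha0 : (a : N) ≠ 0 := by
    intro h0
    rw [h0, zero_div, ord_zero] at hx
    exact lt_irrefl _ hx
  have ha0' : a ≠ 0 := fun h0 => ha0 (by rw [h0]; rfl)
  rw [ord_div _ ha0 hb0, ord_eq_zero_of_not_mem _ hb, sub_zero, ord_pos_iff_mem _ ha0',
    mem_plOf h] at hx
  rw [map_div₀, div_eq_mul_inv, mul_comm]
  refine mul_mem_nonunits 𝒜 (inv_mem_of_not_mem_nonunits 𝒜 ?_) hx
  rwa [← mem_plOf h]

/-- `0 ≤ ord` means membership in `𝒜`. -/
theorem ord_plOf_nonneg_iff {x : N} (hx : x ≠ 0) :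
    0 ≤ ord (plOf N 𝒜 h) x ↔ algebraMap N Qbar x ∈ 𝒜 := by
  refine ⟨algebraMap_mem_of_ord_nonneg h, fun hm => ?_⟩
  by_contra hneg
  have h1 : 0 < ord (plOf N 𝒜 h) x⁻¹ := by
    rw [ord_inv]
    omega
  have h2 := mul_mem_nonunits 𝒜 hm (algebraMap_mem_nonunits_of_ord_pos h h1)
  rw [← map_mul, mul_inv_cancel₀ hx, map_one] at h2
  exact one_not_mem_nonunits 𝒜 h2

/-- `0 < ord` means membership in the maximal ideal of `𝒜`. -/
theorem ord_plOf_pos_iff {x : N} (hx : x ≠ 0) :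
    0 < ord (plOf N 𝒜 h) x ↔ algebraMap N Qbar x ∈ 𝒜.nonunits := by
  refine ⟨algebraMap_mem_nonunits_of_ord_pos h, fun hm => ?_⟩
  by_contra hneg
  have h1 : 0 ≤ ord (plOf N 𝒜 h) x⁻¹ := by
    rw [ord_inv]
    omega
  have h2 := mul_mem_nonunits 𝒜 (algebraMap_mem_of_ord_nonneg h h1) hm
  rw [← map_mul, inv_mul_cancel₀ hx, map_one] at h2
  exact one_not_mem_nonunits 𝒜 h2

/-- Comparison of `ord` with the valuation of `𝒜`. -/
theorem ord_plOf_le_iff {x y : N} (hx : x ≠ 0) (hy : y ≠ 0) :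
    ord (plOf N 𝒜 h) x ≤ ord (plOf N 𝒜 h) y ↔
      𝒜.valuation (algebraMap N Qbar y) ≤ 𝒜.valuation (algebraMap N Qbar x) := by
  have hx' : algebraMap N Qbar x ≠ 0 := (map_ne_zero _).mpr hx
  have h1 : 0 ≤ ord (plOf N 𝒜 h) (y / x) ↔ ord (plOf N 𝒜 h) x ≤ ord (plOf N 𝒜 h) y := by
    rw [ord_div _ hy hx]
    omega
  rw [← h1, ord_plOf_nonneg_iff h (div_ne_zero hy hx), ← 𝒜.valuation_le_one_iff, map_div₀, map_div₀,
    div_le_one₀ (zero_lt_iff.mpr ((Valuation.ne_zero_iff _).mpr hx'))]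

theorem ord_plOf_lt_iff {x y : N} (hx : x ≠ 0) (hy : y ≠ 0) :
    ord (plOf N 𝒜 h) x < ord (plOf N 𝒜 h) y ↔
      𝒜.valuation (algebraMap N Qbar y) < 𝒜.valuation (algebraMap N Qbar x) := by
  rw [← not_le, ← not_le, ord_plOf_le_iff h hy hx]

theorem ord_plOf_eq_iff {x y : N} (hx : x ≠ 0) (hy : y ≠ 0) :
    ord (plOf N 𝒜 h) x = ord (plOf N 𝒜 h) y ↔
      𝒜.valuation (algebraMap N Qbar x) = 𝒜.valuation (algebraMap N Qbar y) := by
  rw [le_antisymm_iff, le_antisymm_iff, ord_plOf_le_iff h hx hy, ord_plOf_le_iff h hy hx, and_comm]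

theorem plOf_eq_iff (v : Pl N) : plOf N 𝒜 h = v ↔ Lift.Above 𝒜 v.asIdeal := by
  constructor
  · rintro rfl
    exact above_plOf h
  · intro hv
    apply HeightOneSpectrum.ext
    ext x
    rw [mem_plOf h, hv x]

theorem over_plOf_iff (q : ℕ) : Over (plOf N 𝒜 h) q ↔ 𝒜.LiesOverPrime q := by
  unfold Over
  rw [mem_plOf h]
  simp [ValuationSubring.LiesOverPrime]

/-- Every place of `N` is induced by a finite place of `Qbar`. -/
theorem exists_plOf_eq (v : Pl N) : ∃ (𝒜 : Place) (h : 𝒜.IsFin), plOf N 𝒜 h = v := by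
  have : v.asIdeal.IsMaximal := v.isMaximal
  obtain ⟨𝒜, hA⟩ := Lift.exists_above (L := Qbar) v.asIdeal
  obtain ⟨ℓ, hℓ, hv⟩ := exists_prime_over v
  have h : Place.IsFin 𝒜 := by
    refine ⟨⟨ℓ, hℓ⟩, ?_⟩
    have := (hA (ℓ : 𝓞 N)).mp hv
    simpa [ValuationSubring.LiesOverPrime] using this
  exact ⟨𝒜, h, (plOf_eq_iff h v).mpr hA⟩

/-- Compatibility in towers. -/
theorem above_plOf_plOf (N' : Type*) [Field N'] [NumberField N'] [Algebra N' Qbar] [Algebra N N']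
    [IsScalarTower N N' Qbar] : Above (plOf N' 𝒜 h) (plOf N 𝒜 h) := by
  rw [above_iff]
  intro x
  rw [mem_plOf h, mem_plOf h, IsScalarTower.algebraMap_apply N N' Qbar]
  rfl

end plOf

section action

open scoped Pointwise

theorem mem_smul_place_iff (g : GQ) (𝒜 : Place) (x : Qbar) : x ∈ g • 𝒜 ↔ g⁻¹ x ∈ 𝒜 :=
  ValuationSubring.mem_pointwise_smul_iff_inv_smul_mem

theorem mem_nonunits_smul_place_iff (g : GQ) (𝒜 : Place) (x : Qbar) :
    x ∈ (g • 𝒜).nonunits ↔ g⁻¹ x ∈ 𝒜.nonunits := by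
  rw [ValuationSubring.mem_nonunits_iff_or, ValuationSubring.mem_nonunits_iff_or,
    mem_smul_place_iff, map_inv₀]
  simp

theorem Place.IsFin.smul {𝒜 : Place} (h : 𝒜.IsFin) (g : GQ) : (g • 𝒜).IsFin := by
  obtain ⟨q, hq⟩ := h
  refine ⟨q, ?_⟩
  change ((q : ℕ) : Qbar) ∈ (g • 𝒜).nonunits
  rw [mem_nonunits_smul_place_iff, map_natCast]
  exact hq

theorem liesOverPrime_smul_iff (g : GQ) (𝒜 : Place) (q : ℕ) :
    (g • 𝒜).LiesOverPrime q ↔ 𝒜.LiesOverPrime q := by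
  change ((q : ℕ) : Qbar) ∈ (g • 𝒜).nonunits ↔ _
  rw [mem_nonunits_smul_place_iff, map_natCast]
  rfl

/-- A finite place of `Qbar` is determined by the algebraic integers in its maximal ideal. -/
theorem place_le_of_int {𝒜 ℬ : Place} (h : 𝒜.IsFin)
    (hint : ∀ b : Qbar, IsIntegral ℤ b → b ∈ ℬ.nonunits → b ∈ 𝒜.nonunits) : 𝒜 ≤ ℬ := by
  obtain ⟨q, hq⟩ := h
  intro x hx
  obtain ⟨b, s, hb, hs, hsA, hxs⟩ := exists_mul_eq_of_mem 𝒜 q.2 hq hx
  have hsB : s ∉ ℬ.nonunits := fun hh => hsA (hint s hs hh)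
  have h2 : x = b * s⁻¹ := by
    rw [← hxs, mul_assoc, mul_inv_cancel₀ (ne_zero_of_not_mem_nonunits ℬ hsB), mul_one]
  rw [h2]
  exact ℬ.mul_mem _ _ (mem_of_isIntegral ℬ hb) (inv_mem_of_not_mem_nonunits ℬ hsB)

theorem place_ext_of_int {𝒜 ℬ : Place} (h : 𝒜.IsFin) (h' : ℬ.IsFin)
    (hint : ∀ b : Qbar, IsIntegral ℤ b → (b ∈ 𝒜.nonunits ↔ b ∈ ℬ.nonunits)) : 𝒜 = ℬ :=
  le_antisymm (place_le_of_int h fun b hb => (hint b hb).mpr)
    (place_le_of_int h' fun b hb => (hint b hb).mp)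

variable {N : Type*} [Field N] [NumberField N] [Algebra N Qbar]

theorem plOf_smul_of_mem_Vof {𝒜 : Place} (h : 𝒜.IsFin) {g : GQ} (hg : g ∈ Vof N) :
    plOf N (g • 𝒜) (h.smul g) = plOf N 𝒜 h := by
  apply HeightOneSpectrum.ext
  ext x
  rw [mem_plOf, mem_plOf, mem_nonunits_smul_place_iff, (Vof N).inv_mem hg]

attribute [local instance] Lift.algInt in
/-- `Gal(Qbar/N)` permutes transitively the places of `Qbar` above a place of `N`. -/
theorem exists_smul_eq_of_plOf_eq {𝒜 ℬ : Place} (h : 𝒜.IsFin) (h' : ℬ.IsFin)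
    (heq : plOf N 𝒜 h = plOf N ℬ h') : ∃ g ∈ Vof N, g • 𝒜 = ℬ := by
  have := Lift.isGalois_top Qbar N
  let _ : TopologicalSpace (intSubring Qbar) := ⊥
  have : DiscreteTopology (intSubring Qbar) := ⟨rfl⟩
  have := Lift.continuousSMul_top (L := Qbar) (Ω := N)
  have hunder : (centre 𝒜).under (𝓞 N) = (centre ℬ).under (𝓞 N) := by
    rw [← (above_plOf (N := N) h).liesOver.over, ← (above_plOf (N := N) h').liesOver.over, heq]
  obtain ⟨t, ht⟩ := Algebra.IsInvariant.exists_smul_of_under_eq_of_profinite (A := 𝓞 N)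
    (G := Qbar ≃ₐ[N] Qbar) (centre 𝒜) (centre ℬ) hunder
  refine ⟨t.restrictScalars ℚ, fun x => t.commutes x, ?_⟩
  refine place_ext_of_int (h.smul _) h' fun b hb => ?_
  have h1 : (⟨b, hb⟩ : intSubring Qbar) ∈ centre ℬ ↔ t⁻¹ • (⟨b, hb⟩ : intSubring Qbar) ∈ centre 𝒜 := by
    rw [ht, Ideal.mem_pointwise_smul_iff_inv_smul_mem]
  rw [mem_centre, mem_centre] at h1
  rw [mem_nonunits_smul_place_iff, h1]
  rfl

end action

end Fermat.Agent.PT

end
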