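/-
S55 (Poitou-Tate), block HENS: general facts on the valuation of a finite place `𝒜` of `Qbar`:
invariance under the decomposition group, archimedean property, auxiliary number fields.
-/
import Fermat.Agent.PT.Hens.Place

set_option autoImplicit false

open NumberField IsDedekindDomain Fermat.Agent.CFT Fermat.Agent.Lib.Frobenius
open scoped Pointwise

noncomputable section

namespace Fermat.Agent.PT

theorem Val.inv_apply_apply (g : GQ) (x : Qbar) : g⁻¹ (g x) = x := by
  rw [← AlgEquiv.mul_apply, inv_mul_cancel, AlgEquiv.one_apply]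

/-- Elements of the decomposition group preserve `𝒜`. -/
theorem apply_mem_iff_of_mem_Dec {𝒜 : Place} {g : GQ} (hg : g ∈ Dec 𝒜) (x : Qbar) :
    g x ∈ 𝒜 ↔ x ∈ 𝒜 := by
  have h : g • 𝒜 = 𝒜 := MulAction.mem_stabilizer_iff.mp hg
  conv_lhs => rw [← h]
  rw [mem_smul_place_iff, Val.inv_apply_apply]

theorem apply_mem_nonunits_iff_of_mem_Dec {𝒜 : Place} {g : GQ} (hg : g ∈ Dec 𝒜) (x : Qbar) :
    g x ∈ 𝒜.nonunits ↔ x ∈ 𝒜.nonunits := by
  have h : g • 𝒜 = 𝒜 := MulAction.mem_stabilizer_iff.mp hg
  conv_lhs => rw [← h]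
  rw [mem_nonunits_smul_place_iff, Val.inv_apply_apply]

/-- Every element of `Qbar` has a finite orbit under the powers of `g`. -/
theorem exists_pow_apply_eq (g : GQ) (x : Qbar) : ∃ n : ℕ, 0 < n ∧ (g ^ n) x = x := by
  have hx : IsIntegral ℚ x := Algebra.IsIntegral.isIntegral x
  have hmem : ∀ i : ℕ, (g ^ i) x ∈ (minpoly ℚ x).rootSet Qbar := by
    intro i
    rw [Polynomial.mem_rootSet]
    refine ⟨minpoly.ne_zero hx, ?_⟩
    have := Polynomial.aeval_algHom_apply ((g ^ i : GQ) : Qbar →ₐ[ℚ] Qbar) x (minpoly ℚ x)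
    rw [minpoly.aeval, map_zero] at this
    exact this
  have hfin : Finite ((minpoly ℚ x).rootSet Qbar) := (Polynomial.rootSet_finite _ _).to_subtype
  obtain ⟨a, b, hab, hf⟩ := Finite.exists_ne_map_eq_of_infinite
    (fun i : ℕ => (⟨(g ^ i) x, hmem i⟩ : (minpoly ℚ x).rootSet Qbar))
  have hf' : (g ^ a) x = (g ^ b) x := congrArg Subtype.val hf
  have key : ∀ a b : ℕ, a < b → (g ^ a) x = (g ^ b) x → ∃ n : ℕ, 0 < n ∧ (g ^ n) x = x := by
    intro a b hlt h
    refine ⟨b - a, Nat.sub_pos_of_lt hlt, ?_⟩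
    have hb : g ^ b = g ^ a * g ^ (b - a) := by rw [← pow_add, Nat.add_sub_cancel' hlt.le]
    rw [hb, AlgEquiv.mul_apply] at h
    exact ((g ^ a).injective h).symm
  rcases lt_or_gt_of_ne hab with h | h
  · exact key a b h hf'
  · exact key b a h hf'.symm

theorem Val.prod_mem_nonunits (𝒜 : Place) (f : ℕ → Qbar) (hf : ∀ i, f i ∈ 𝒜.nonunits) (m : ℕ) :
    ∏ i ∈ Finset.range (m + 1), f i ∈ 𝒜.nonunits := by
  induction m with
  | zero => simpa using hf 0
  | succ m ih =>
    rw [Finset.prod_range_succ]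
    exact 𝒜.nonunits.mul_mem ih (hf _)

theorem Val.prod_range_div (f : ℕ → Qbar) (hf : ∀ i, f i ≠ 0) (n : ℕ) :
    ∏ i ∈ Finset.range n, f (i + 1) / f i = f n / f 0 := by
  induction n with
  | zero => simp [div_self (hf 0)]
  | succ n ih =>
    rw [Finset.prod_range_succ, ih]
    have h1 := hf n
    have h2 := hf 0
    field_simp

theorem Val.div_not_mem_nonunits {𝒜 : Place} {g : GQ} (hg : g ∈ Dec 𝒜) {x : Qbar} (hx : x ≠ 0) :
    g x / x ∉ 𝒜.nonunits := by
  intro hu
  obtain ⟨n, hn, hgn⟩ := exists_pow_apply_eq g x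
  obtain ⟨m, rfl⟩ : ∃ m, n = m + 1 := ⟨n - 1, by omega⟩
  have h1 : ∀ i : ℕ, (g ^ (i + 1)) x / (g ^ i) x ∈ 𝒜.nonunits := by
    intro i
    have h2 : (g ^ (i + 1)) x / (g ^ i) x = (g ^ i) (g x / x) := by
      rw [map_div₀, pow_succ, AlgEquiv.mul_apply]
    rw [h2, apply_mem_nonunits_iff_of_mem_Dec (pow_mem hg i)]
    exact hu
  have h3 := Val.prod_mem_nonunits 𝒜 _ h1 m
  rw [Val.prod_range_div (fun i => (g ^ i) x) (fun i => (map_ne_zero _).mpr hx), hgn, pow_zero,
    AlgEquiv.one_apply, div_self hx] at h3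
  exact one_not_mem_nonunits 𝒜 h3

/-- The decomposition group preserves the valuation (not only the valuation ring). -/
theorem valuation_apply_of_mem_Dec {𝒜 : Place} {g : GQ} (hg : g ∈ Dec 𝒜) (x : Qbar) :
    𝒜.valuation (g x) = 𝒜.valuation x := by
  by_cases hx : x = 0
  · rw [hx, map_zero]
  have hgx : g x ≠ 0 := (map_ne_zero _).mpr hx
  have h1 := Val.div_not_mem_nonunits hg hx
  have h2 := Val.div_not_mem_nonunits (inv_mem hg) hgx
  rw [Val.inv_apply_apply] at h2
  rw [ValuationSubring.mem_nonunits_iff, not_lt, map_div₀] at h1 h2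
  have hpx : 0 < 𝒜.valuation x := zero_lt_iff.mpr ((Valuation.ne_zero_iff _).mpr hx)
  have hpgx : 0 < 𝒜.valuation (g x) := zero_lt_iff.mpr ((Valuation.ne_zero_iff _).mpr hgx)
  rw [one_le_div₀ hpx] at h1
  rw [one_le_div₀ hpgx] at h2
  exact le_antisymm h2 h1

/-- A finite-dimensional subfield of `Qbar` is a number field. -/
theorem numberField_of_finiteDimensional (K : IntermediateField ℚ Qbar) [FiniteDimensional ℚ K] :
    NumberField K where
  to_charZero := inferInstance
  to_finiteDimensional := by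
    convert (inferInstance : FiniteDimensional ℚ K)

/-- A finite extension (inside `Qbar`) of a number field is a number field. -/
theorem numberField_of_finiteDimensional' {N : Type*} [Field N] [NumberField N] [Algebra N Qbar]
    (L : IntermediateField N Qbar) [FiniteDimensional N L] : NumberField L where
  to_charZero := inferInstance
  to_finiteDimensional := Module.Finite.trans N L

/-- Finitely many elements of `Qbar` lie in a finite Galois extension of `N`. -/
theorem exists_galois_extension (N : Type*) [Field N] [NumberField N] [Algebra N Qbar]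
    (s : Finset Qbar) :
    ∃ L : IntermediateField N Qbar, FiniteDimensional N L ∧ IsGalois N L ∧ ∀ x ∈ s, x ∈ L := by
  have hint : ∀ x : Qbar, IsIntegral N x := fun x =>
    (Algebra.IsIntegral.isIntegral (R := ℚ) x).tower_top
  have hfd : FiniteDimensional N (IntermediateField.adjoin N (s : Set Qbar)) :=
    IntermediateField.finiteDimensional_adjoin fun x _ => hint x
  refine ⟨IntermediateField.normalClosure N (IntermediateField.adjoin N (s : Set Qbar)) Qbar,
    normalClosure.is_finiteDimensional _ _ _, ?_, fun x hx => ?_⟩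
  · have halg : Algebra.IsAlgebraic N Qbar := ⟨fun x => (hint x).isAlgebraic⟩
    have hcl : IsAlgClosure N Qbar := ⟨inferInstance, halg⟩
    have hnQ : Normal N Qbar := IsAlgClosure.normal N Qbar
    have hn : Normal N
        (IntermediateField.normalClosure N (IntermediateField.adjoin N (s : Set Qbar)) Qbar) :=
      normalClosure.normal _ _ _
    exact { }
  · exact IntermediateField.le_normalClosure _ (IntermediateField.subset_adjoin N _ hx)

/-- Archimedean property: powers of the residue characteristic are cofinal. -/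
theorem exists_pow_valuation_lt {𝒜 : Place} {q : ℕ} (hq : q.Prime) (h : 𝒜.LiesOverPrime q)
    {c : Qbar} (hc : c ≠ 0) : ∃ n : ℕ, 𝒜.valuation ((q : Qbar) ^ n) < 𝒜.valuation c := by
  have hfd : FiniteDimensional ℚ (IntermediateField.adjoin ℚ {c}) :=
    IntermediateField.adjoin.finiteDimensional (Algebra.IsIntegral.isIntegral c)
  have hnf : NumberField (IntermediateField.adjoin ℚ {c}) := numberField_of_finiteDimensional _
  set K := IntermediateField.adjoin ℚ {c} with hK
  let c0 : K := ⟨c, IntermediateField.mem_adjoin_simple_self ℚ c⟩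
  have hc0 : c0 ≠ 0 := fun h0 => hc (congrArg Subtype.val h0)
  have hfin : 𝒜.IsFin := ⟨⟨q, hq⟩, h⟩
  have hq0 : (q : K) ≠ 0 := Nat.cast_ne_zero.mpr hq.ne_zero
  have hpos : 0 < ord (plOf K 𝒜 hfin) (q : K) := by
    rw [ord_plOf_pos_iff hfin hq0, map_natCast]
    exact h
  refine ⟨(ord (plOf K 𝒜 hfin) c0).toNat + 1, ?_⟩
  have h1 : ord (plOf K 𝒜 hfin) c0 <
      ord (plOf K 𝒜 hfin) ((q : K) ^ ((ord (plOf K 𝒜 hfin) c0).toNat + 1)) := by
    rw [ord_pow]
    have h2 := Int.self_le_toNat (ord (plOf K 𝒜 hfin) c0)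
    push_cast
    nlinarith
  have h3 := (ord_plOf_lt_iff hfin hc0 (pow_ne_zero _ hq0)).mp h1
  rw [map_pow, map_natCast] at h3
  exact h3

end Fermat.Agent.PT

end
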