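/-
S55 (Poitou-Tate), block HENS: restriction `Gal(Qbar/N) → Gal(N'/N)` for number fields
`N ⊆ N' ⊆ Qbar`, `N'/N` Galois; the decomposition group of `𝒜` maps ONTO the decomposition
group of the place `plOf N' 𝒜` (inertia: see `RestrictIne.lean`).
-/
import Fermat.Agent.PT.Hens.Val

set_option autoImplicit false

open NumberField IsDedekindDomain Fermat.Agent.CFT Fermat.Agent.Lib.Frobenius
open scoped Pointwise

noncomputable section

namespace Fermat.Agent.PT

section resHom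

variable (N : Type*) [Field N] [CharZero N] [Algebra N Qbar]

/-- `Vof N` is `Gal(Qbar/N)`. -/
def VofEquiv : ↥(Vof N) ≃* (Qbar ≃ₐ[N] Qbar) where
  toFun g := AlgEquiv.ofRingEquiv (f := g.1.toRingEquiv) g.2
  invFun t := ⟨t.restrictScalars ℚ, fun x => t.commutes x⟩
  left_inv g := by ext; rfl
  right_inv t := by ext; rfl
  map_mul' g g' := by ext; rfl

@[simp] theorem VofEquiv_apply (g : Vof N) (x : Qbar) : VofEquiv N g x = g.1 x := rfl

variable (N' : Type*) [Field N'] [Algebra N' Qbar] [Algebra N N'] [IsScalarTower N N' Qbar]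
  [Normal N N']

/-- Restriction `Gal(Qbar/N) → Gal(N'/N)`. -/
def resHom : ↥(Vof N) →* (N' ≃ₐ[N] N') :=
  (AlgEquiv.restrictNormalHom N').comp (VofEquiv N).toMonoidHom

variable {N N'}

theorem resHom_spec (g : Vof N) (z : N') :
    algebraMap N' Qbar (resHom N N' g z) = g.1 (algebraMap N' Qbar z) :=
  AlgEquiv.restrictNormal_commutes (VofEquiv N g) N' z

theorem resHom_eq_iff (g : Vof N) (s : N' ≃ₐ[N] N') :
    resHom N N' g = s ↔ ∀ z : N', g.1 (algebraMap N' Qbar z) = algebraMap N' Qbar (s z) := by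
  constructor
  · rintro rfl z
    exact (resHom_spec g z).symm
  · intro hz
    ext z
    apply (algebraMap N' Qbar).injective
    rw [resHom_spec, hz]

theorem resHom_eq_one_iff (g : Vof N) : resHom N N' g = 1 ↔ g.1 ∈ Vof N' := by
  rw [resHom_eq_iff, mem_Vof]
  rfl

theorem resHom_surjective : Function.Surjective (resHom N N') := by
  intro s
  have hint : Algebra.IsAlgebraic N Qbar := Algebra.IsAlgebraic.tower_top (K := ℚ) N
  have hnorm : Normal N Qbar := normal_iff.mpr fun x =>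
    ⟨(Algebra.IsAlgebraic.isAlgebraic x).isIntegral, IsAlgClosed.splits _⟩
  obtain ⟨t, ht⟩ := AlgEquiv.restrictNormalHom_surjective (F := N) (K₁ := N') Qbar s
  refine ⟨(VofEquiv N).symm t, ?_⟩
  change AlgEquiv.restrictNormalHom N' (VofEquiv N ((VofEquiv N).symm t)) = s
  rw [MulEquiv.apply_symm_apply, ht]

end resHom

section places

variable {N : Type*} [Field N] [NumberField N] [Algebra N Qbar]
  {N' : Type*} [Field N'] [NumberField N'] [Algebra N' Qbar] [Algebra N N']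
  [IsScalarTower N N' Qbar] [IsGalois N N'] {𝒜 : Place} (h : 𝒜.IsFin)

omit [Algebra N N'] [IsScalarTower N N' Qbar] [IsGalois N N'] [NumberField N] [Algebra N Qbar] in
theorem Restrict.plOf_congr {𝒜 ℬ : Place} (h : 𝒜.IsFin) (h' : ℬ.IsFin) (e : 𝒜 = ℬ) :
    plOf N' 𝒜 h = plOf N' ℬ h' := by
  subst e
  rfl

/-- Equivariance of `plOf`. -/
theorem plOf_smul (g : Vof N) :
    plOf N' (g.1 • 𝒜) (h.smul g.1) = resHom N N' g • plOf N' 𝒜 h := by
  apply HeightOneSpectrum.ext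
  ext x
  rw [mem_smul_asIdeal_iff, mem_plOf, mem_plOf, mem_nonunits_smul_place_iff]
  have h1 : algebraMap N' Qbar (((resHom N N' g)⁻¹ • x : 𝓞 N') : N')
      = g.1⁻¹ (algebraMap N' Qbar (x : N')) := by
    rw [← map_inv]
    exact resHom_spec g⁻¹ (x : N')
  rw [h1]

theorem resHom_smul_plOf_of_mem_Dec (g : Vof N) (hg : g.1 ∈ Dec 𝒜) :
    resHom N N' g • plOf N' 𝒜 h = plOf N' 𝒜 h := by
  rw [← plOf_smul h g]
  exact Restrict.plOf_congr _ _ hg

/-- The decomposition group of `𝒜` (in `Gal(Qbar/N)`) maps onto that of `plOf N' 𝒜`. -/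
theorem exists_mem_Dec_resHom_eq (s : N' ≃ₐ[N] N') (hs : s • plOf N' 𝒜 h = plOf N' 𝒜 h) :
    ∃ g : Vof N, g.1 ∈ Dec 𝒜 ∧ resHom N N' g = s := by
  obtain ⟨g0, hg0⟩ := resHom_surjective (N := N) (N' := N') s
  have h1 : plOf N' (g0.1 • 𝒜) (h.smul g0.1) = plOf N' 𝒜 h := by
    rw [plOf_smul h g0, hg0, hs]
  obtain ⟨t, ht, hteq⟩ := exists_smul_eq_of_plOf_eq (N := N') (h.smul g0.1) h h1
  have htN : t ∈ Vof N := Vof_le_of_tower N' ht
  refine ⟨⟨t, htN⟩ * g0, ?_, ?_⟩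
  · change (t * g0.1) • 𝒜 = 𝒜
    rw [mul_smul, hteq]
  · rw [map_mul, hg0, (resHom_eq_one_iff (N' := N') ⟨t, htN⟩).mpr ht, one_mul]

/-- Bridge for `CFT.Split`. -/
theorem split_plOf_iff : Split N' (plOf N 𝒜 h) ↔ Vof N ⊓ Dec 𝒜 ≤ Vof N' := by
  constructor
  · rintro hsp g ⟨hgN, hgD⟩
    have h1 := hsp (plOf N' 𝒜 h) (above_plOf_plOf h N') (resHom N N' ⟨g, hgN⟩)
      (resHom_smul_plOf_of_mem_Dec h ⟨g, hgN⟩ hgD)
    exact (resHom_eq_one_iff (N' := N') ⟨g, hgN⟩).mp h1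
  · intro hle w' hw' s hs
    obtain ⟨τ, hτ⟩ := exists_smul_eq_of_above (above_plOf_plOf h N') hw'
    have h1 : (τ⁻¹ * s * τ) • plOf N' 𝒜 h = plOf N' 𝒜 h := by
      rw [mul_smul, mul_smul, hτ, hs, ← hτ, inv_smul_smul]
    obtain ⟨g, hgD, hg⟩ := exists_mem_Dec_resHom_eq (N := N) h _ h1
    have h2 : resHom N N' g = 1 := (resHom_eq_one_iff g).mpr (hle ⟨g.2, hgD⟩)
    rw [h2] at hg
    have h3 : s = τ * (τ⁻¹ * s * τ) * τ⁻¹ := by group
    rw [h3, ← hg]
    group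

end places

end Fermat.Agent.PT

end
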