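/-
S55 (Poitou-Tate), block HENS: the henselian local field `kh N 𝒜 = Qbar^(Gal(Qbar/N) ∩ D_𝒜)` of a
number field `N ⊆ Qbar` at a finite place `𝒜` of `Qbar`;  `N` is dense in it.
-/
import Fermat.Agent.PT.Hens.Restrict

set_option autoImplicit false

open NumberField IsDedekindDomain Fermat.Agent.CFT Fermat.Agent.Lib.Frobenius
open scoped Pointwise

noncomputable section

namespace Fermat.Agent.PT

section defs

variable (N : Type*) [Field N] [Algebra N Qbar] (𝒜 : Place)

/-- The henselisation of `N` at `𝒜`, inside `Qbar`: the fixed field of `Vof N ⊓ Dec 𝒜`. -/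
def kh : IntermediateField ℚ Qbar := IntermediateField.fixedField (Vof N ⊓ Dec 𝒜)

variable {N 𝒜}

theorem mem_kh {x : Qbar} : x ∈ kh N 𝒜 ↔ ∀ g ∈ Vof N ⊓ Dec 𝒜, g x = x :=
  IntermediateField.mem_fixedField_iff _ _

theorem algebraMap_mem_kh (x : N) : algebraMap N Qbar x ∈ kh N 𝒜 :=
  mem_kh.mpr fun _ hg => hg.1 x

theorem kh_le_of_tower (N' : Type*) [Field N'] [Algebra N' Qbar] [Algebra N N']
    [IsScalarTower N N' Qbar] : kh N 𝒜 ≤ kh N' 𝒜 :=
  IntermediateField.fixedField_le (inf_le_inf_right _ (Vof_le_of_tower N'))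

end defs

section dense

variable {N : Type*} [Field N] [NumberField N] [Algebra N Qbar] {𝒜 : Place}

theorem Kh.le_ord_sum {M : Type*} [Field M] [NumberField M] (v : Pl M) {ι : Type*} (t : Finset ι)
    (f : ι → M) (n : ℤ) (hf : ∀ i ∈ t, f i = 0 ∨ n ≤ ord v (f i)) :
    ∑ i ∈ t, f i = 0 ∨ n ≤ ord v (∑ i ∈ t, f i) := by
  classical
  induction t using Finset.induction_on with
  | empty => left; simp
  | insert a t ha ih =>
    rw [Finset.sum_insert ha]
    exact le_ord_add v (hf a (Finset.mem_insert_self a t))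
      (ih fun i hi => hf i (Finset.mem_insert_of_mem hi))

/-- **Density.**  `N` is dense in its henselisation `kh N 𝒜` (i.e. `e = f = 1`). -/
theorem exists_close_of_mem_kh (h : 𝒜.IsFin) {x : Qbar} (hx : x ∈ kh N 𝒜) {c : Qbar} (hc : c ≠ 0) :
    ∃ y : N, 𝒜.valuation (x - algebraMap N Qbar y) < 𝒜.valuation c := by
  classical
  obtain ⟨q, hq⟩ := id h
  obtain ⟨n', hn'⟩ := exists_pow_valuation_lt q.2 hq hc
  obtain ⟨L, hfd, hgal, hxL⟩ := exists_galois_extension N {x}
  have hxL' : x ∈ L := hxL x (Finset.mem_singleton_self x)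
  have := numberField_of_finiteDimensional' L
  set w := plOf L 𝒜 h with hw
  let x0 : L := ⟨x, hxL'⟩
  have hx0 : algebraMap L Qbar x0 = x := rfl
  -- invariance under the decomposition group
  have hfix : ∀ σ : L ≃ₐ[N] L, σ • w = w → σ x0 = x0 := by
    intro σ hσ
    obtain ⟨g, hgD, hgσ⟩ := exists_mem_Dec_resHom_eq (N := N) h σ hσ
    apply (algebraMap L Qbar).injective
    rw [← hgσ, resHom_spec, hx0]
    exact mem_kh.mp hx g.1 ⟨g.2, hgD⟩
  let s : Finset (Pl L) := Finset.univ.image (fun σ : L ≃ₐ[N] L => σ⁻¹ • w)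
  let D : Finset (L ≃ₐ[N] L) := Finset.univ.filter (fun σ => σ • w = w)
  have hD1 : (1 : L ≃ₐ[N] L) ∈ D := by simp [D]
  have hd : (D.card : L) ≠ 0 := Nat.cast_ne_zero.mpr (Finset.card_ne_zero_of_mem hD1)
  have hdN : (D.card : N) ≠ 0 := Nat.cast_ne_zero.mpr (Finset.card_ne_zero_of_mem hD1)
  have hqL : ((q : ℕ) : L) ^ n' ≠ 0 := pow_ne_zero _ (Nat.cast_ne_zero.mpr q.2.ne_zero)
  set n : ℤ := ord w (((q : ℕ) : L) ^ n') + ord w (D.card : L) with hn
  obtain ⟨z, hz⟩ := exists_approx s (fun v => if v = w then x0 else 0) n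
  refine ⟨Algebra.trace N L z / D.card, ?_⟩
  -- the error term
  have hterm : ∀ σ ∈ (Finset.univ : Finset (L ≃ₐ[N] L)),
      ((if σ ∈ D then x0 else 0) - σ z) = 0 ∨ n ≤ ord w ((if σ ∈ D then x0 else 0) - σ z) := by
    intro σ _
    have hmem : σ⁻¹ • w ∈ s := Finset.mem_image.mpr ⟨σ, Finset.mem_univ _, rfl⟩
    have hzσ := hz _ hmem
    by_cases hσ : σ ∈ D
    · have hσw : σ • w = w := (Finset.mem_filter.mp hσ).2
      have hσw' : σ⁻¹ • w = w := by rw [inv_smul_eq_iff, hσw]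
      rw [if_pos hσ]
      rw [hσw', if_pos rfl] at hzσ
      have h1 : x0 - σ z = σ • (x0 - z) := by
        rw [AlgEquiv.smul_def, map_sub, hfix σ hσw]
      rcases hzσ with hzσ | hzσ
      · left
        rw [hzσ, hfix σ hσw, sub_self]
      · right
        rw [h1, ord_smul', hσw', ord_sub_comm]
        exact hzσ
    · have hσw : σ⁻¹ • w ≠ w := by
        intro h0
        apply hσ
        rw [inv_smul_eq_iff] at h0
        exact Finset.mem_filter.mpr ⟨Finset.mem_univ _, h0.symm⟩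
      rw [if_neg hσ, zero_sub]
      rw [if_neg hσw, sub_zero] at hzσ
      rcases hzσ with hzσ | hzσ
      · left
        rw [hzσ, map_zero, neg_zero]
      · right
        rw [ord_neg, ← AlgEquiv.smul_def, ord_smul']
        exact hzσ
  have hsum := Kh.le_ord_sum w Finset.univ _ n hterm
  have hsum_eq : ∑ σ : L ≃ₐ[N] L, ((if σ ∈ D then x0 else 0) - σ z) =
      (D.card : L) * (x0 - algebraMap N L (Algebra.trace N L z / D.card)) := by
    rw [Finset.sum_sub_distrib, ← trace_eq_sum_automorphisms, Finset.sum_ite_mem,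
      Finset.univ_inter, Finset.sum_const, nsmul_eq_mul, map_div₀, map_natCast]
    field_simp
  rw [hsum_eq] at hsum
  set e : L := x0 - algebraMap N L (Algebra.trace N L z / D.card) with he
  have hexp : x - algebraMap N Qbar (Algebra.trace N L z / D.card) = algebraMap L Qbar e := by
    rw [he, map_sub, hx0, ← IsScalarTower.algebraMap_apply]
  rw [hexp]
  refine lt_of_le_of_lt ?_ hn'
  by_cases he0 : e = 0
  · rw [he0, map_zero, map_zero]
    exact zero_le
  · rcases hsum with hsum | hsum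
    · exact absurd hsum (mul_ne_zero hd he0)
    · rw [ord_mul w hd he0, hn] at hsum
      have h2 : ord w (((q : ℕ) : L) ^ n') ≤ ord w e := by omega
      have h3 := (ord_plOf_le_iff h hqL he0).mp h2
      simpa using h3

/-- Multiplicative form of density. -/
theorem exists_div_close_of_mem_kh (h : 𝒜.IsFin) {x : Qbar} (hx : x ∈ kh N 𝒜) (hx0 : x ≠ 0)
    {c : Qbar} (hc : c ≠ 0) :
    ∃ y : Nˣ, 𝒜.valuation (x / algebraMap N Qbar y - 1) < 𝒜.valuation c := by
  obtain ⟨c', hc'0, hc'1, hc'c⟩ : ∃ c' : Qbar, c' ≠ 0 ∧ 𝒜.valuation c' ≤ 1 ∧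
      𝒜.valuation c' ≤ 𝒜.valuation c := by
    by_cases h1 : 𝒜.valuation c ≤ 1
    · exact ⟨c, hc, h1, le_rfl⟩
    · exact ⟨1, one_ne_zero, by simp, by simpa using (not_le.mp h1).le⟩
  obtain ⟨y, hy⟩ := exists_close_of_mem_kh (N := N) h hx (mul_ne_zero hx0 hc'0)
  have hvx : 𝒜.valuation x ≠ 0 := (Valuation.ne_zero_iff _).mpr hx0
  have hlt : 𝒜.valuation (x - algebraMap N Qbar y) < 𝒜.valuation x := by
    refine lt_of_lt_of_le hy ?_
    rw [map_mul]
    exact mul_le_of_le_one_right' hc'1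
  have hvy : 𝒜.valuation (algebraMap N Qbar y) = 𝒜.valuation x := by
    have h2 : algebraMap N Qbar y = x - (x - algebraMap N Qbar y) := by ring
    rw [h2]
    exact Valuation.map_sub_eq_of_lt_left _ hlt
  have hy0' : algebraMap N Qbar y ≠ 0 := by
    rw [← Valuation.ne_zero_iff 𝒜.valuation, hvy]
    exact hvx
  have hy0 : y ≠ 0 := fun h0 => hy0' (by rw [h0, map_zero])
  refine ⟨Units.mk0 y hy0, ?_⟩
  have h3 : x / algebraMap N Qbar y - 1 = (x - algebraMap N Qbar y) / algebraMap N Qbar y := by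
    field_simp
  rw [Units.val_mk0, h3, map_div₀, hvy]
  refine lt_of_lt_of_le ?_ hc'c
  rw [div_lt_iff₀ (zero_lt_iff.mpr hvx), mul_comm, ← map_mul]
  exact hy

/-- The value group of `kh N 𝒜` is that of `N`. -/
theorem exists_valuation_eq_of_mem_kh (h : 𝒜.IsFin) {x : Qbar} (hx : x ∈ kh N 𝒜) (hx0 : x ≠ 0) :
    ∃ y : Nˣ, 𝒜.valuation x = 𝒜.valuation (algebraMap N Qbar y) := by
  obtain ⟨y, hy⟩ := exists_div_close_of_mem_kh (N := N) h hx hx0 one_ne_zero
  refine ⟨y, ?_⟩
  rw [map_one] at hy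
  have hy0 : algebraMap N Qbar (y : N) ≠ 0 := (map_ne_zero _).mpr y.ne_zero
  have h1 : 𝒜.valuation (x / algebraMap N Qbar y) = 1 := by
    have h2 : x / algebraMap N Qbar y = 1 + (x / algebraMap N Qbar y - 1) := by ring
    rw [h2]
    exact Valuation.map_one_add_of_lt _ hy
  rw [map_div₀, div_eq_one_iff_eq ((Valuation.ne_zero_iff _).mpr hy0)] at h1
  exact h1

end dense

end Fermat.Agent.PT

end
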