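/-
S55 (Poitou-Tate), block HENS: Galois correspondence for the henselian fields:
`Gal(Qbar / kh N 𝒜) = Vof N ⊓ Dec 𝒜`; every open subgroup of it comes from a number field.
-/
import Fermat.Agent.PT.Hens.Kh

set_option autoImplicit false

open scoped Pointwise

noncomputable section

namespace Fermat.Agent.PT

/-- The decomposition group is closed: an element which agrees on every `x` with some element of
`Vof N ⊓ Dec 𝒜` lies in `Vof N ⊓ Dec 𝒜`. -/
theorem mem_of_forall_exists_apply_eq {N : Type*} [Field N] [Algebra N Qbar] {𝒜 : Place} {g : GQ}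
    (hg : ∀ s : Finset Qbar, ∃ d ∈ Vof N ⊓ Dec 𝒜, ∀ x ∈ s, d x = g x) : g ∈ Vof N ⊓ Dec 𝒜 := by
  refine ⟨fun x => ?_, ?_⟩
  · obtain ⟨d, hd, hdx⟩ := hg {algebraMap N Qbar x}
    rw [← hdx _ (Finset.mem_singleton_self _)]
    exact hd.1 x
  · show g • 𝒜 = 𝒜
    ext x
    rw [mem_smul_place_iff]
    obtain ⟨d, hd, hdx⟩ := hg {g⁻¹ x}
    have h1 := hdx _ (Finset.mem_singleton_self _)
    have h2 : g (g⁻¹ x) = x := by
      rw [← AlgEquiv.mul_apply, mul_inv_cancel, AlgEquiv.one_apply]
    rw [h2] at h1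
    rw [← apply_mem_iff_of_mem_Dec hd.2 (g⁻¹ x), h1]

/-- A subgroup with the finite approximation property is closed for the Krull topology. -/
theorem Closed.isClosed_of_approx (H : Subgroup GQ)
    (hH : ∀ g : GQ, (∀ s : Finset Qbar, ∃ d ∈ H, ∀ x ∈ s, d x = g x) → g ∈ H) :
    IsClosed (H : Set GQ) := by
  rw [← closure_subset_iff_isClosed]
  intro g hg
  refine hH g fun s => ?_
  let E : IntermediateField ℚ Qbar := IntermediateField.adjoin ℚ (s : Set Qbar)
  have hfd : FiniteDimensional ℚ E :=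
    IntermediateField.finiteDimensional_adjoin fun x _ => Algebra.IsIntegral.isIntegral x
  have hopen : IsOpen (g • (E.fixingSubgroup : Set GQ)) :=
    (IntermediateField.fixingSubgroup_isOpen E).leftCoset g
  have hmem : g ∈ g • (E.fixingSubgroup : Set GQ) :=
    ⟨1, E.fixingSubgroup.one_mem, by simp⟩
  obtain ⟨d, ⟨h, hh, rfl⟩, hdH⟩ := mem_closure_iff.mp hg _ hopen hmem
  refine ⟨_, hdH, fun x hx => ?_⟩
  have hxE : x ∈ E := IntermediateField.subset_adjoin ℚ _ hx
  show (g * h) x = g x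
  rw [AlgEquiv.mul_apply, (IntermediateField.mem_fixingSubgroup_iff E h).mp hh x hxE]

theorem fixingSubgroup_kh (N : Type*) [Field N] [Algebra N Qbar] (𝒜 : Place) :
    (kh N 𝒜).fixingSubgroup = Vof N ⊓ Dec 𝒜 := by
  have hcl : IsClosed ((Vof N ⊓ Dec 𝒜 : Subgroup GQ) : Set GQ) :=
    Closed.isClosed_of_approx _ fun _ hg => mem_of_forall_exists_apply_eq hg
  exact InfiniteGalois.fixingSubgroup_fixedField (⟨Vof N ⊓ Dec 𝒜, hcl⟩ : ClosedSubgroup GQ)

/-- A finite normal level containing `F` and the image of the number field `N`. -/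
theorem Closed.exists_level {N : Type*} [Field N] [NumberField N] [Algebra N Qbar]
    (F : IntermediateField ℚ Qbar) [FiniteDimensional ℚ F] :
    ∃ F' : IntermediateField ℚ Qbar, F ≤ F' ∧ (∀ x : N, algebraMap N Qbar x ∈ F') ∧
      FiniteDimensional ℚ F' ∧ F'.fixingSubgroup.Normal := by
  let f : N →ₐ[ℚ] Qbar := (algebraMap N Qbar).toRatAlgHom
  have hfd : FiniteDimensional ℚ f.fieldRange :=
    LinearEquiv.finiteDimensional (AlgEquiv.ofInjectiveField f).toLinearEquiv
  let E : IntermediateField ℚ Qbar := F ⊔ f.fieldRange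
  have hE : FiniteDimensional ℚ E := IntermediateField.finiteDimensional_sup _ _
  refine ⟨IntermediateField.normalClosure ℚ E Qbar, le_sup_left.trans E.le_normalClosure,
    fun x => ?_, normalClosure.is_finiteDimensional _ _ _, ?_⟩
  · exact E.le_normalClosure ((le_sup_right : f.fieldRange ≤ E) ⟨x, rfl⟩)
  · have := IsGalois.normalClosure ℚ E Qbar
    exact IsGalois.fixingSubgroup_normal_of_isGalois _

/-- Every open subgroup of `Vof N ⊓ Dec 𝒜` is `Vof K' ⊓ Dec 𝒜` for a number field `K' ⊇ N`. -/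
theorem exists_numberField_of_open {N : Type*} [Field N] [NumberField N] [Algebra N Qbar]
    {𝒜 : Place} {W' : Subgroup GQ} (hle : W' ≤ Vof N ⊓ Dec 𝒜) (F : IntermediateField ℚ Qbar)
    [FiniteDimensional ℚ F] (hopen : Vof N ⊓ Dec 𝒜 ⊓ F.fixingSubgroup ≤ W') :
    ∃ K' : IntermediateField ℚ Qbar, FiniteDimensional ℚ K' ∧
      (∀ x : N, algebraMap N Qbar x ∈ K') ∧ K'.fixingSubgroup ⊓ Dec 𝒜 = W' := by
  obtain ⟨F', hFF', hNF', hfd, hnormal⟩ := Closed.exists_level (N := N) F
  set U : Subgroup GQ := F'.fixingSubgroup with hU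
  have hUopen : IsOpen (U : Set GQ) := IntermediateField.fixingSubgroup_isOpen F'
  have hUN : U ≤ Vof N := fun u hu x =>
    (IntermediateField.mem_fixingSubgroup_iff F' u).mp hu _ (hNF' x)
  have hUF : U ≤ F.fixingSubgroup := IntermediateField.fixingSubgroup_antitone hFF'
  set Hs : Subgroup GQ := W' ⊔ U with hHs
  have hHsopen : IsOpen (Hs : Set GQ) := Subgroup.isOpen_mono (le_sup_right : U ≤ Hs) hUopen
  have hHscl : IsClosed (Hs : Set GQ) := Subgroup.isClosed_of_isOpen Hs hHsopen
  have hHsN : Hs ≤ Vof N := sup_le (hle.trans inf_le_left) hUN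
  have hfix : (IntermediateField.fixedField Hs).fixingSubgroup = Hs :=
    InfiniteGalois.fixingSubgroup_fixedField (⟨Hs, hHscl⟩ : ClosedSubgroup GQ)
  have hK'le : IntermediateField.fixedField Hs ≤ F' := by
    have h1 : IntermediateField.fixedField Hs ≤ IntermediateField.fixedField U :=
      IntermediateField.fixedField_le (le_sup_right : U ≤ Hs)
    rwa [hU, InfiniteGalois.fixedField_fixingSubgroup] at h1
  refine ⟨IntermediateField.fixedField Hs, ?_, fun x => ?_, ?_⟩
  · exact FiniteDimensional.of_injective (IntermediateField.inclusion hK'le).toLinearMap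
      (IntermediateField.inclusion hK'le).injective
  · rw [IntermediateField.mem_fixedField_iff]
    exact fun g hg => hHsN hg x
  · rw [hfix]
    apply le_antisymm
    · rintro g ⟨hgH, hgD⟩
      have hgH' : g ∈ ((W' ⊔ U : Subgroup GQ) : Set GQ) := hgH
      rw [Subgroup.mul_normal W' U] at hgH'
      obtain ⟨w, hw, u, hu, rfl⟩ := Set.mem_mul.mp hgH'
      have hw' : w ∈ W' := hw
      have hu' : u ∈ U := hu
      have huD : u ∈ Dec 𝒜 := by
        have : u = w⁻¹ * (w * u) := by group
        rw [this]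
        exact (Dec 𝒜).mul_mem ((Dec 𝒜).inv_mem (hle hw').2) hgD
      exact W'.mul_mem hw' (hopen ⟨⟨hUN hu', huD⟩, hUF hu'⟩)
    · exact le_inf le_sup_left (hle.trans inf_le_right)

end Fermat.Agent.PT

end
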