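/-
S55 (Poitou-Tate), block HENS: Hensel's lemma in the fixed field of any subgroup `W ≤ Dec 𝒜`
("the root closest to the approximate root is unique, hence fixed by `W`").
-/
import Fermat.Agent.PT.Hens.Val

set_option autoImplicit false

open Polynomial

noncomputable section

namespace Fermat.Agent.PT

variable {𝒜 : Place} {W : Subgroup GQ}

namespace Hensel

/-- `|1 - a^k| ≤ |1 - a|` for `|a| ≤ 1`. -/
theorem val_one_sub_pow_le {a : Qbar} (ha : 𝒜.valuation a ≤ 1) (k : ℕ) :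
    𝒜.valuation (1 - a ^ k) ≤ 𝒜.valuation (1 - a) := by
  rw [← geom_sum_mul_neg a k, map_mul]
  have h1 : 𝒜.valuation (∑ i ∈ Finset.range k, a ^ i) ≤ 1 := by
    apply Valuation.map_sum_le
    intro i _
    rw [map_pow]
    exact pow_le_one' ha i
  calc 𝒜.valuation (∑ i ∈ Finset.range k, a ^ i) * 𝒜.valuation (1 - a)
      ≤ 1 * 𝒜.valuation (1 - a) := mul_le_mul_left h1 _
    _ = _ := one_mul _

/-- roots of unity have valuation one. -/
theorem val_eq_one_of_pow_eq_one {a : Qbar} {n : ℕ} (hn : n ≠ 0) (ha : a ^ n = 1) :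
    𝒜.valuation a = 1 := by
  have h : 𝒜.valuation a ^ n = 1 := by rw [← map_pow, ha, map_one]
  exact (pow_eq_one_iff_of_nonneg zero_le hn).mp h

/-- all primitive `p`-th roots of unity have the same `|1 - ζ|`. -/
theorem val_one_sub_eq {p : ℕ} (hp : p.Prime) {ζ ξ : Qbar} (hζ : IsPrimitiveRoot ζ p)
    (hξ : IsPrimitiveRoot ξ p) : 𝒜.valuation (1 - ξ) = 𝒜.valuation (1 - ζ) := by
  have key : ∀ {a b : Qbar}, IsPrimitiveRoot a p → IsPrimitiveRoot b p →
      𝒜.valuation (1 - b) ≤ 𝒜.valuation (1 - a) := by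
    intro a b ha hb
    have : NeZero p := ⟨hp.ne_zero⟩
    obtain ⟨k, _, rfl⟩ := ha.eq_pow_of_pow_eq_one hb.pow_eq_one
    exact val_one_sub_pow_le (val_eq_one_of_pow_eq_one hp.ne_zero ha.pow_eq_one).le k
  exact le_antisymm (key hζ hξ) (key hξ hζ)

end Hensel

open Hensel in
/-- **Hensel, Kummer form.**  If `u` is fixed by `W ≤ Dec 𝒜` and `|u - 1| < |1 - ζ|^p` then `u` has a
`p`-th root `y` fixed by `W`, with `|y - 1| < |1 - ζ|`. -/
theorem exists_pow_eq_of_close (hW : W ≤ Dec 𝒜) {p : ℕ} (hp : p.Prime) {ζ : Qbar}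
    (hζ : IsPrimitiveRoot ζ p) {u : Qbar} (hu : u ∈ IntermediateField.fixedField W)
    (hclose : 𝒜.valuation (u - 1) < 𝒜.valuation ((1 - ζ) ^ p)) :
    ∃ y ∈ IntermediateField.fixedField W, y ^ p = u ∧ 𝒜.valuation (y - 1) < 𝒜.valuation (1 - ζ) := by
  obtain ⟨y0, hy0⟩ := IsAlgClosed.exists_pow_nat_eq u hp.pos
  have hprod : (1 : Qbar) - u = ∏ ξ ∈ nthRootsFinset p (1 : Qbar), (1 - ξ * y0) := by
    have := hζ.pow_sub_pow_eq_prod_sub_mul (1 : Qbar) y0 hp.pos
    rw [one_pow, hy0] at this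
    exact this
  -- some factor is small
  have hex : ∃ ξ ∈ nthRootsFinset p (1 : Qbar), 𝒜.valuation (1 - ξ * y0) < 𝒜.valuation (1 - ζ) := by
    by_contra hcon
    push Not at hcon
    have h1 : 𝒜.valuation (1 - ζ) ^ (nthRootsFinset p (1 : Qbar)).card
        ≤ ∏ ξ ∈ nthRootsFinset p (1 : Qbar), 𝒜.valuation (1 - ξ * y0) :=
      Finset.pow_card_le_prod _ _ _ hcon
    rw [hζ.card_nthRootsFinset, ← map_prod, ← hprod, ← map_pow, Valuation.map_sub_swap] at h1
    exact absurd hclose (not_lt.mpr h1)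
  obtain ⟨ξ, hξmem, hξ⟩ := hex
  have hξp : ξ ^ p = 1 := (mem_nthRootsFinset hp.pos 1).mp hξmem
  set y := ξ * y0 with hy
  have hyp : y ^ p = u := by rw [hy, mul_pow, hξp, one_mul, hy0]
  have hζ1 : 𝒜.valuation (1 - ζ) ≤ 1 := by
    have := val_one_sub_pow_le (𝒜 := 𝒜) (a := ζ)
      (val_eq_one_of_pow_eq_one hp.ne_zero hζ.pow_eq_one).le 0
    have h2 : 𝒜.valuation (1 - ζ) ≤ max (𝒜.valuation 1) (𝒜.valuation ζ) := Valuation.map_sub _ _ _
    rw [map_one, val_eq_one_of_pow_eq_one hp.ne_zero hζ.pow_eq_one, max_self] at h2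
    exact h2
  have hy1 : 𝒜.valuation y = 1 := by
    have h3 : 𝒜.valuation (1 - y) < 1 := lt_of_lt_of_le hξ hζ1
    have h4 : y = 1 - (1 - y) := by ring
    rw [h4]
    exact Valuation.map_one_sub_of_lt _ h3
  refine ⟨y, ?_, hyp, by rw [Valuation.map_sub_swap]; exact hξ⟩
  rw [IntermediateField.mem_fixedField_iff]
  intro g hg
  have hgD : g ∈ Dec 𝒜 := hW hg
  have hgu : g u = u := (IntermediateField.mem_fixedField_iff W u).mp hu g hg
  have hgy : (g y) ^ p = y ^ p := by rw [← map_pow, hyp, hgu]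
  have hy0' : y ≠ 0 := by
    intro h0
    rw [h0, map_zero] at hy1
    exact zero_ne_one hy1
  by_contra hne
  set η := g y / y with hη
  have hηp : η ^ p = 1 := by rw [hη, div_pow, hgy, div_self (pow_ne_zero _ hy0')]
  have hη1 : η ≠ 1 := by
    intro h1
    apply hne
    rw [hη, div_eq_one_iff_eq hy0'] at h1
    exact h1
  have hηprim : IsPrimitiveRoot η p := by
    have h8 := IsPrimitiveRoot.orderOf η
    rwa [orderOf_eq_prime hηp hη1 (hp := ⟨hp⟩)] at h8
  have hval : 𝒜.valuation (1 - η) = 𝒜.valuation (1 - ζ) := val_one_sub_eq hp hζ hηprim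
  have hdec : 1 - g y = (1 - y) + y * (1 - η) := by
    rw [hη]; field_simp; ring
  have h5 : 𝒜.valuation (1 - g y) = 𝒜.valuation (1 - y) := by
    have : 1 - g y = g (1 - y) := by rw [map_sub, map_one]
    rw [this, valuation_apply_of_mem_Dec hgD]
  have h6 : 𝒜.valuation (y * (1 - η)) = 𝒜.valuation (1 - ζ) := by
    rw [map_mul, hy1, one_mul, hval]
  have h7' : 𝒜.valuation (1 - y) < 𝒜.valuation (y * (1 - η)) := h6.symm ▸ hξ
  have h7 : 𝒜.valuation ((1 - y) + y * (1 - η)) = 𝒜.valuation (y * (1 - η)) :=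
    Valuation.map_add_eq_of_lt_right _ h7'
  rw [← hdec, h5, h6] at h7
  exact absurd hξ (by rw [h7]; exact lt_irrefl _)

end Fermat.Agent.PT

end
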