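/-
S55 (Poitou-Tate), block HENS: bridge for local `p`-th powers:
`CFT.LP p ζ (plOf N 𝒜)` = elements of `N` which are `p`-th powers in the henselisation `kh N 𝒜`,
and `N^× → kh^×/kh^{×p}` is onto.
-/
import Fermat.Agent.PT.Hens.Kh
import Fermat.Agent.PT.Hens.Hensel

set_option autoImplicit false

open NumberField IsDedekindDomain Fermat.Agent.CFT

noncomputable section

namespace Fermat.Agent.PT

variable {N : Type*} [Field N] [NumberField N] [Algebra N Qbar] {𝒜 : Place} (h : 𝒜.IsFin)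
  {p : ℕ} [Fact p.Prime] {ζ : N}

omit [NumberField N] [Algebra N Qbar] in
theorem LPBridge.one_sub_ne_zero (hζ : IsPrimitiveRoot ζ p) : (1 - ζ) ≠ 0 := by
  intro h0
  exact hζ.ne_one (Fact.out : p.Prime).one_lt (sub_eq_zero.mp h0).symm

omit [NumberField N] in
theorem LPBridge.c_ne_zero (hζ : IsPrimitiveRoot ζ p) :
    (1 - algebraMap N Qbar ζ) ^ p ≠ 0 := by
  have h1 : (1 - algebraMap N Qbar ζ) = algebraMap N Qbar (1 - ζ) := by simp
  rw [h1]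
  exact pow_ne_zero _ ((map_ne_zero _).mpr (LPBridge.one_sub_ne_zero hζ))

omit [NumberField N] in
theorem LPBridge.c_valuation_le_one (𝒜 : Place) (hζ : IsPrimitiveRoot ζ p) :
    𝒜.valuation ((1 - algebraMap N Qbar ζ) ^ p) ≤ 1 := by
  rw [𝒜.valuation_le_one_iff]
  refine 𝒜.pow_mem ?_ p
  refine Fermat.Agent.Lib.Frobenius.mem_of_isIntegral 𝒜 ?_
  exact isIntegral_one.sub
    (map_isIntegral_int (algebraMap N Qbar) (hζ.isIntegral (Fact.out : p.Prime).pos))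

omit [Algebra N Qbar] in
theorem LPBridge.ord_one_sub_nonneg (hζ : IsPrimitiveRoot ζ p) (v : Pl N) : 0 ≤ ord v (1 - ζ) := by
  have hint : IsIntegral ℤ (1 - ζ) := isIntegral_one.sub (hζ.isIntegral (Fact.out : p.Prime).pos)
  exact ord_nonneg_of_integer v (⟨1 - ζ, hint⟩ : 𝓞 N)

/-- translation of the defining inequality of `PU v (p * ord v (1 - ζ))`. -/
theorem mem_PU_plOf_iff (hζ : IsPrimitiveRoot ζ p) (u : Nˣ) :
    u ∈ PU (plOf N 𝒜 h) (p * (ord (plOf N 𝒜 h) (1 - ζ)).toNat) ↔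
      𝒜.valuation (algebraMap N Qbar u - 1) < 𝒜.valuation ((1 - algebraMap N Qbar ζ) ^ p) := by
  rw [mem_PU_iff]
  have hc := LPBridge.c_ne_zero (N := N) hζ
  by_cases hu : (u : N) = 1
  · simp only [hu, true_or, map_one, sub_self, map_zero, true_iff]
    exact zero_lt_iff.mpr ((Valuation.ne_zero_iff _).mpr hc)
  · have hu' : (u : N) - 1 ≠ 0 := sub_ne_zero.mpr hu
    have h1 : (((p * (ord (plOf N 𝒜 h) (1 - ζ)).toNat : ℕ)) : ℤ)
        = ord (plOf N 𝒜 h) ((1 - ζ) ^ p) := by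
      rw [ord_pow, Nat.cast_mul, Int.toNat_of_nonneg (LPBridge.ord_one_sub_nonneg hζ _)]
    rw [h1, ord_plOf_lt_iff h (pow_ne_zero _ (LPBridge.one_sub_ne_zero hζ)) hu']
    simp [hu]

/-- an element of `kh N 𝒜` close to `1` is a `p`-th power in `kh N 𝒜`. -/
theorem exists_pow_eq_of_close_kh (hζ : IsPrimitiveRoot ζ p) {u : Qbar} (hu : u ∈ kh N 𝒜)
    (hclose : 𝒜.valuation (u - 1) < 𝒜.valuation ((1 - algebraMap N Qbar ζ) ^ p)) :
    ∃ y ∈ kh N 𝒜, y ^ p = u := by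
  obtain ⟨y, hy, hyp, -⟩ := exists_pow_eq_of_close (W := Vof N ⊓ Dec 𝒜) inf_le_right
    (Fact.out : p.Prime) (hζ.map_of_injective (algebraMap N Qbar).injective) hu hclose
  exact ⟨y, hy, hyp⟩

omit [NumberField N] in
/-- if `x` is close to `1`, so is `x ^ p`. -/
theorem LPBridge.pow_close (hζ : IsPrimitiveRoot ζ p) {x : Qbar}
    (hx : 𝒜.valuation (x - 1) < 𝒜.valuation ((1 - algebraMap N Qbar ζ) ^ p)) :
    𝒜.valuation (x ^ p - 1) < 𝒜.valuation ((1 - algebraMap N Qbar ζ) ^ p) := by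
  have h1 : 𝒜.valuation (x - 1) ≤ 1 := hx.le.trans (LPBridge.c_valuation_le_one 𝒜 hζ)
  have hx1 : x - 1 ∈ 𝒜 := (𝒜.valuation_le_one_iff _).mp h1
  have hxA : x ∈ 𝒜 := by
    have := 𝒜.add_mem _ _ hx1 𝒜.one_mem
    simpa using this
  have h2 : x ^ p - 1 = (∑ i ∈ Finset.range p, x ^ i) * (x - 1) := (geom_sum_mul x p).symm
  have h3 : (∑ i ∈ Finset.range p, x ^ i) ∈ 𝒜 := 𝒜.sum_mem fun i _ => 𝒜.pow_mem hxA i
  rw [h2, map_mul]
  calc 𝒜.valuation (∑ i ∈ Finset.range p, x ^ i) * 𝒜.valuation (x - 1)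
      ≤ 1 * 𝒜.valuation (x - 1) := by
        gcongr
        exact (𝒜.valuation_le_one_iff _).mpr h3
    _ = 𝒜.valuation (x - 1) := one_mul _
    _ < _ := hx

/-- **LP bridge.** -/
theorem mem_LP_plOf_iff (hζ : IsPrimitiveRoot ζ p) (b : Nˣ) :
    b ∈ LP p ζ (plOf N 𝒜 h) ↔ ∃ y ∈ kh N 𝒜, y ^ p = algebraMap N Qbar b := by
  rw [mem_LP_iff]
  constructor
  · rintro ⟨u, hu, y, rfl⟩
    rw [mem_PU_plOf_iff h hζ] at hu
    obtain ⟨z, hz, hzp⟩ := exists_pow_eq_of_close_kh hζ (algebraMap_mem_kh (u : N)) hu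
    refine ⟨z * algebraMap N Qbar y, (kh N 𝒜).mul_mem hz (algebraMap_mem_kh (y : N)), ?_⟩
    rw [mul_pow, hzp]
    simp
  · rintro ⟨y, hy, hyp⟩
    have hb0 : algebraMap N Qbar b ≠ 0 := (map_ne_zero _).mpr b.ne_zero
    have hy0 : y ≠ 0 := by
      rintro rfl
      rw [zero_pow (Fact.out : p.Prime).ne_zero] at hyp
      exact hb0 hyp.symm
    obtain ⟨y0, hy0c⟩ := exists_div_close_of_mem_kh h hy hy0 (LPBridge.c_ne_zero (N := N) hζ)
    have h1 := LPBridge.pow_close hζ hy0c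
    refine ⟨b * (y0 ^ p)⁻¹, ?_, y0, by simp⟩
    rw [mem_PU_plOf_iff h hζ]
    have h2 : algebraMap N Qbar ((b * (y0 ^ p)⁻¹ : Nˣ) : N) = (y / algebraMap N Qbar y0) ^ p := by
      rw [div_pow, hyp]
      simp [div_eq_mul_inv]
    rw [h2]
    exact h1

include h in
/-- `N^× → kh^× / kh^{× p}` is onto. -/
theorem exists_eq_mul_pow_of_mem_kh (hζ : IsPrimitiveRoot ζ p) {x : Qbar} (hx : x ∈ kh N 𝒜)
    (hx0 : x ≠ 0) : ∃ b : Nˣ, ∃ y ∈ kh N 𝒜, x = algebraMap N Qbar b * y ^ p := by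
  obtain ⟨b, hb⟩ := exists_div_close_of_mem_kh h hx hx0 (LPBridge.c_ne_zero (N := N) hζ)
  obtain ⟨y, hy, hyp⟩ := exists_pow_eq_of_close_kh hζ
    ((kh N 𝒜).div_mem hx (algebraMap_mem_kh (b : N))) hb
  refine ⟨b, y, hy, ?_⟩
  rw [hyp]
  have hb0 : algebraMap N Qbar b ≠ 0 := (map_ne_zero _).mpr b.ne_zero
  field_simp

end Fermat.Agent.PT

end
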