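/-
S55 (Poitou-Tate), block HENS: the inertia group of `𝒜` (inside `Gal(Qbar/N)`) maps ONTO the inertia
group of the place `plOf N' 𝒜` of a finite Galois extension `N'/N`; bridge for `CFT.Unram`.
-/
import Fermat.Agent.PT.Hens.Restrict

set_option autoImplicit false

open NumberField IsDedekindDomain Fermat.Agent.CFT Fermat.Agent.Lib.Frobenius
open scoped Pointwise

noncomputable section

namespace Fermat.Agent.PT

theorem Ine_le_Dec (𝒜 : Place) : Ine 𝒜 ≤ Dec 𝒜 := by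
  rintro _ ⟨d, -, rfl⟩
  exact d.2

/-- Elements of the inertia group act trivially modulo the maximal ideal. -/
theorem apply_sub_mem_nonunits_of_mem_Ine {𝒜 : Place} {g : GQ} (hg : g ∈ Ine 𝒜) {x : Qbar}
    (hx : x ∈ 𝒜) : g x - x ∈ 𝒜.nonunits := by
  obtain ⟨d, hd, rfl⟩ := hg
  have h1 := MonoidHom.mem_ker.mp hd
  have h2 := RingEquiv.congr_fun h1 (IsLocalRing.residue 𝒜 ⟨x, hx⟩)
  change d • IsLocalRing.residue 𝒜 ⟨x, hx⟩ = IsLocalRing.residue 𝒜 ⟨x, hx⟩ at h2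
  rw [← IsLocalRing.ResidueField.residue_smul, ← sub_eq_zero, ← map_sub,
    IsLocalRing.residue_eq_zero_iff, ← 𝒜.coe_mem_nonunits_iff] at h2
  exact h2

variable {N : Type*} [Field N] [NumberField N] [Algebra N Qbar]
  {N' : Type*} [Field N'] [NumberField N'] [Algebra N' Qbar] [Algebra N N']
  [IsScalarTower N N' Qbar] [IsGalois N N'] {𝒜 : Place} (h : 𝒜.IsFin)

theorem resHom_mem_inertia_of_mem_Ine (g : Vof N) (hg : g.1 ∈ Ine 𝒜) (x : 𝓞 N') :
    resHom N N' g • x - x ∈ (plOf N' 𝒜 h).asIdeal := by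
  rw [mem_plOf]
  have h1 : ((resHom N N' g • x - x : 𝓞 N') : N') = resHom N N' g (x : N') - (x : N') := rfl
  rw [h1, map_sub, resHom_spec]
  exact apply_sub_mem_nonunits_of_mem_Ine hg (algebraMap_int_mem 𝒜 x)

/-- the decomposition group stabilises the centre. -/
theorem RestrictIne.smul_centre_of_mem_Dec {𝒜 : Place} {g : GQ} (hg : g ∈ Dec 𝒜) :
    g • centre 𝒜 = centre 𝒜 := by
  ext b
  rw [Ideal.mem_pointwise_smul_iff_inv_smul_mem, mem_centre, mem_centre, coe_smul_intSubring]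
  exact apply_mem_nonunits_iff_of_mem_Dec ((Dec 𝒜).inv_mem hg) _

attribute [local instance] Fermat.Agent.CFT.Lift.algInt

set_option synthInstance.maxHeartbeats 400000 in
set_option maxHeartbeats 1000000 in
/-- The inertia group of `𝒜` (in `Gal(Qbar/N)`) maps onto that of `plOf N' 𝒜`. -/
theorem exists_mem_Ine_resHom_eq (s : N' ≃ₐ[N] N')
    (hs : ∀ x : 𝓞 N', s • x - x ∈ (plOf N' 𝒜 h).asIdeal) :
    ∃ g : Vof N, g.1 ∈ Ine 𝒜 ∧ resHom N N' g = s := by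
  have := Lift.isGalois_top Qbar N'
  have hsP : s • plOf N' 𝒜 h = plOf N' 𝒜 h := smul_eq_of_inertia _ s hs
  obtain ⟨g1, hg1D, hg1s⟩ := exists_mem_Dec_resHom_eq h s hsP
  have hg1 : g1.1 • centre 𝒜 = centre 𝒜 := RestrictIne.smul_centre_of_mem_Dec hg1D
  let _ : TopologicalSpace (intSubring Qbar) := ⊥
  have : DiscreteTopology (intSubring Qbar) := ⟨rfl⟩
  have := Lift.continuousSMul_top (L := Qbar) (Ω := N')
  have hAP : Lift.Above 𝒜 (plOf N' 𝒜 h).asIdeal := above_plOf h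
  have hover := hAP.liesOver
  set P := (plOf N' 𝒜 h).asIdeal with hP
  set Q := centre 𝒜 with hQ
  let f0 := Ideal.Quotient.stabilizerHom Q (Q.under ℤ) (Qbar ≃ₐ[ℚ] Qbar) ⟨g1.1, hg1⟩
  let l : (intSubring Qbar ⧸ Q) ≃ₐ[𝓞 N' ⧸ P] (intSubring Qbar ⧸ Q) :=
    AlgEquiv.ofRingEquiv (f := f0.toRingEquiv) (by
      intro r
      obtain ⟨x, rfl⟩ := Ideal.Quotient.mk_surjective r
      change Ideal.Quotient.mk Q (g1.1 • algebraMap (𝓞 N') (intSubring Qbar) x) =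
        Ideal.Quotient.mk Q (algebraMap (𝓞 N') (intSubring Qbar) x)
      rw [Ideal.Quotient.eq, hQ, mem_centre]
      change g1.1 (algebraMap N' Qbar (x : N')) - algebraMap N' Qbar (x : N') ∈ 𝒜.nonunits
      rw [← resHom_spec, hg1s, ← map_sub]
      exact (hAP (s • x - x)).mp (hs x))
  obtain ⟨h', hh'⟩ := Ideal.Quotient.stabilizerHom_surjective_of_profinite
    (G := Qbar ≃ₐ[N'] Qbar) P Q l
  obtain ⟨q, hq⟩ := h
  have hfix : ∀ z : N', (h'.1.restrictScalars ℚ)⁻¹ (algebraMap N' Qbar z) = algebraMap N' Qbar z := by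
    intro z
    change (h'.1.restrictScalars ℚ).symm _ = _
    rw [AlgEquiv.symm_apply_eq]
    exact (h'.1.commutes z).symm
  have hV : (h'.1.restrictScalars ℚ)⁻¹ * g1.1 ∈ Vof N := by
    intro z
    rw [AlgEquiv.mul_apply, g1.2 z, IsScalarTower.algebraMap_apply N N' Qbar]
    exact hfix _
  refine ⟨⟨(h'.1.restrictScalars ℚ)⁻¹ * g1.1, hV⟩, ?_, ?_⟩
  · apply Lift.mem_inertia_of 𝒜 q.2 hq
    intro b hb
    have h1 := DFunLike.congr_fun hh' (Ideal.Quotient.mk Q ⟨b, hb⟩)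
    have h2 : l (Ideal.Quotient.mk Q ⟨b, hb⟩) = Ideal.Quotient.mk Q (g1.1 • ⟨b, hb⟩) := rfl
    rw [h2, Ideal.Quotient.stabilizerHom_apply, Ideal.Quotient.eq] at h1
    have h3 : h'.1⁻¹ • (h' • (⟨b, hb⟩ : intSubring Qbar) - g1.1 • ⟨b, hb⟩) ∈ h'.1⁻¹ • Q :=
      Ideal.smul_mem_pointwise_smul_iff.mpr h1
    have h4 : h'.1⁻¹ • Q = Q := by
      have := h'.2
      rw [MulAction.mem_stabilizer_iff] at this
      rw [inv_smul_eq_iff, this]
    rw [h4] at h3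
    have h3' := (mem_centre 𝒜 _).mp h3
    have h5 : ((h'.1⁻¹ • (h' • (⟨b, hb⟩ : intSubring Qbar) - g1.1 • ⟨b, hb⟩) : intSubring Qbar) : Qbar)
        = b - h'.1⁻¹ (g1.1 b) := by
      rw [smul_sub]
      change h'.1⁻¹ (h'.1 b) - h'.1⁻¹ (g1.1 b) = _
      congr 1
      change (h'.1⁻¹ * h'.1) b = b
      simp
    rw [h5] at h3'
    have h6 := 𝒜.nonunits.neg_mem h3'
    rw [neg_sub] at h6
    exact h6
  · rw [resHom_eq_iff]
    intro z
    change (h'.1.restrictScalars ℚ)⁻¹ (g1.1 (algebraMap N' Qbar z)) = _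
    rw [← resHom_spec, hg1s]
    exact hfix _

/-- Bridge for `CFT.Unram`. -/
theorem unram_plOf_iff : Unram N (plOf N' 𝒜 h) ↔ Vof N ⊓ Ine 𝒜 ≤ Vof N' := by
  constructor
  · rintro hu g ⟨hgV, hgI⟩
    have h1 := hu (resHom N N' ⟨g, hgV⟩) (resHom_mem_inertia_of_mem_Ine h ⟨g, hgV⟩ hgI)
    exact (resHom_eq_one_iff (N' := N') (⟨g, hgV⟩ : Vof N)).mp h1
  · intro hle σ hσ
    obtain ⟨g, hgI, rfl⟩ := exists_mem_Ine_resHom_eq h σ hσ
    exact (resHom_eq_one_iff g).mpr (hle ⟨g.2, hgI⟩)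

end Fermat.Agent.PT

end
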