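/-
S55 (Poitou-Tate), block HENS: ramification of Kummer extensions at places not above `p`:
`b^(1/p)` is fixed by the inertia group iff `p ∣ ord_v b`.
-/
import Fermat.Agent.PT.Hens.LPBridge
import Fermat.Agent.PT.Hens.RestrictIne

set_option autoImplicit false

open NumberField IsDedekindDomain Fermat.Agent.CFT

noncomputable section

namespace Fermat.Agent.PT

variable {N : Type*} [Field N] [NumberField N] [Algebra N Qbar] {𝒜 : Place} (h : 𝒜.IsFin)
  {p : ℕ} [Fact p.Prime] {ζ : N}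

/-- a nontrivial `p`-th root of unity congruent to `1` forces residue characteristic `p`. -/
theorem Kummer.liesOver_of_root {𝒜 : Place} {p : ℕ} {ξ : Qbar} (hξp : ξ ^ p = 1) (hξ1 : ξ ≠ 1)
    (hξ : ξ - 1 ∈ 𝒜.nonunits) : 𝒜.LiesOverPrime p := by
  have hv : 𝒜.valuation (ξ - 1) < 1 := 𝒜.mem_nonunits_iff.mp hξ
  have hξA : ξ ∈ 𝒜 := by
    have h1 : ξ - 1 ∈ 𝒜 := (𝒜.valuation_le_one_iff _).mp hv.le
    have := 𝒜.add_mem _ _ h1 𝒜.one_mem
    simpa using this
  have hsum : ∑ i ∈ Finset.range p, ξ ^ i = 0 := by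
    have h1 := geom_sum_mul ξ p
    rw [hξp, sub_self] at h1
    exact (mul_eq_zero.mp h1).resolve_right (sub_ne_zero.mpr hξ1)
  have hp : (p : Qbar) = - ∑ i ∈ Finset.range p, (ξ ^ i - 1) := by
    rw [Finset.sum_sub_distrib, hsum]
    simp
  change (p : Qbar) ∈ 𝒜.nonunits
  rw [𝒜.mem_nonunits_iff, hp, Valuation.map_neg]
  refine 𝒜.valuation.map_sum_lt one_ne_zero fun i _ => ?_
  rw [← geom_sum_mul ξ i, map_mul]
  have h3 : (∑ j ∈ Finset.range i, ξ ^ j) ∈ 𝒜 := 𝒜.sum_mem fun j _ => 𝒜.pow_mem hξA j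
  calc 𝒜.valuation (∑ j ∈ Finset.range i, ξ ^ j) * 𝒜.valuation (ξ - 1)
      ≤ 1 * 𝒜.valuation (ξ - 1) := by
        gcongr
        exact (𝒜.valuation_le_one_iff _).mpr h3
    _ = 𝒜.valuation (ξ - 1) := one_mul _
    _ < 1 := hv

/-- A `p`-th root of a unit at `𝒜 ∤ p` is fixed by inertia. -/
theorem apply_eq_of_mem_Ine_of_pow_unit (hp : ¬ 𝒜.LiesOverPrime p) {g : GQ} (hg : g ∈ Ine 𝒜)
    {β : Qbar} (hβ : 𝒜.valuation (β ^ p) = 1) (hfix : g (β ^ p) = β ^ p) : g β = β := by
  have hp0 : p ≠ 0 := (Fact.out : p.Prime).ne_zero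
  have hβ0 : β ≠ 0 := by
    rintro rfl
    rw [zero_pow hp0, map_zero] at hβ
    exact zero_ne_one hβ
  have hβ1 : 𝒜.valuation β = 1 := by
    rw [map_pow] at hβ
    exact (pow_eq_one_iff.mp hβ).resolve_right hp0
  have hβA : β ∈ 𝒜 := (𝒜.valuation_le_one_iff _).mp hβ1.le
  have hβinv : β⁻¹ ∈ 𝒜 := by
    rw [← 𝒜.valuation_le_one_iff, map_inv₀, hβ1, inv_one]
  by_contra hne
  set ξ := g β / β with hξdef
  have hξp : ξ ^ p = 1 := by
    rw [hξdef, div_pow, ← map_pow, hfix, div_self (pow_ne_zero _ hβ0)]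
  have hξ1 : ξ ≠ 1 := by
    intro h1
    rw [hξdef, div_eq_one_iff_eq hβ0] at h1
    exact hne h1
  have hξ : ξ - 1 ∈ 𝒜.nonunits := by
    have h1 : ξ - 1 = β⁻¹ * (g β - β) := by
      rw [hξdef]
      field_simp
    rw [h1]
    exact Fermat.Agent.Lib.Frobenius.mul_mem_nonunits 𝒜 hβinv
      (apply_sub_mem_nonunits_of_mem_Ine hg hβA)
  exact hp (Kummer.liesOver_of_root hξp hξ1 hξ)

/-- **Tame Kummer bridge.** -/
theorem dvd_ord_plOf_iff (hζ : IsPrimitiveRoot ζ p) (hp : ¬ 𝒜.LiesOverPrime p) (b : Nˣ) {β : Qbar}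
    (hβ : β ^ p = algebraMap N Qbar b) :
    (p : ℤ) ∣ ord (plOf N 𝒜 h) (b : N) ↔ ∀ g ∈ Vof N ⊓ Ine 𝒜, g β = β := by
  have hp0 : p ≠ 0 := (Fact.out : p.Prime).ne_zero
  constructor
  · rintro ⟨k, hk⟩ g hg
    obtain ⟨π, hπ⟩ := exists_uniformizer (plOf N 𝒜 h)
    have hπ0 : (π : N) ≠ 0 := by
      intro h0
      rw [h0, ord_zero] at hπ
      exact zero_ne_one hπ
    have hπ0' : algebraMap N Qbar (π : N) ≠ 0 := (map_ne_zero _).mpr hπ0
    set b' : N := (b : N) / (π : N) ^ ((p : ℤ) * k) with hb'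
    have hb'0 : b' ≠ 0 := div_ne_zero b.ne_zero (zpow_ne_zero _ hπ0)
    have hord : ord (plOf N 𝒜 h) b' = ord (plOf N 𝒜 h) (1 : N) := by
      rw [hb', ord_div _ b.ne_zero (zpow_ne_zero _ hπ0), ord_zpow, hπ, hk, ord_one]
      ring
    have hval : 𝒜.valuation (algebraMap N Qbar b') = 1 := by
      have := (ord_plOf_eq_iff h hb'0 one_ne_zero).mp hord
      rwa [map_one, map_one] at this
    set β' : Qbar := β / (algebraMap N Qbar (π : N)) ^ k with hβ'
    have hβ'p : β' ^ p = algebraMap N Qbar b' := by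
      rw [hβ', div_pow, hβ, hb', map_div₀, map_zpow₀, zpow_mul', zpow_natCast]
    have h1 : g β' = β' := by
      refine apply_eq_of_mem_Ine_of_pow_unit hp hg.2 ?_ ?_
      · rw [hβ'p, hval]
      · rw [hβ'p]
        exact hg.1 b'
    have h2 : β = β' * (algebraMap N Qbar (π : N)) ^ k := by
      rw [hβ', div_mul_cancel₀ _ (zpow_ne_zero _ hπ0')]
    rw [h2, map_mul, h1, map_zpow₀, hg.1]
  · intro hfix
    classical
    let f : Polynomial N := Polynomial.X ^ p - Polynomial.C (b : N)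
    have hf0 : f ≠ 0 := Polynomial.X_pow_sub_C_ne_zero (Nat.pos_of_ne_zero hp0) _
    let N' : IntermediateField N Qbar := IntermediateField.adjoin N (f.rootSet Qbar)
    have hsplit : f.IsSplittingField N N' :=
      IntermediateField.adjoin_rootSet_isSplittingField (IsAlgClosed.splits _)
    have : FiniteDimensional N N' := Polynomial.IsSplittingField.finiteDimensional N' f
    have : NumberField N' := numberField_of_finiteDimensional' N'
    have : Normal N N' := Normal.of_isSplittingField f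
    have : IsGalois N N' := ⟨⟩
    have hζ' : IsPrimitiveRoot (algebraMap N Qbar ζ) p :=
      hζ.map_of_injective (algebraMap N Qbar).injective
    have hb0 : algebraMap N Qbar b ≠ 0 := (map_ne_zero _).mpr b.ne_zero
    have hβ0 : β ≠ 0 := by
      rintro rfl
      rw [zero_pow hp0] at hβ
      exact hb0 hβ.symm
    have hroot : ∀ y ∈ f.rootSet Qbar, y ^ p = algebraMap N Qbar b := by
      intro y hy
      rw [Polynomial.mem_rootSet] at hy
      have := hy.2
      simp only [f, map_sub, map_pow, Polynomial.aeval_X, Polynomial.aeval_C] at this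
      exact sub_eq_zero.mp this
    have hβmem : β ∈ N' := by
      refine IntermediateField.subset_adjoin N _ ?_
      rw [Polynomial.mem_rootSet]
      refine ⟨hf0, ?_⟩
      simp only [f, map_sub, map_pow, Polynomial.aeval_X, Polynomial.aeval_C]
      exact sub_eq_zero.mpr hβ
    have hle : Vof N ⊓ Ine 𝒜 ≤ Vof N' := by
      intro g hg
      have hgβ := hfix g hg
      let g' : Qbar ≃ₐ[N] Qbar := VofEquiv N ⟨g, hg.1⟩
      have hext : (g' : Qbar →ₐ[N] Qbar).comp N'.val = N'.val := by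
        refine IntermediateField.adjoin_algHom_ext N ?_
        intro y hy
        change g y = y
        have hy' := hroot y hy
        have h1 : (y / β) ^ p = 1 := by
          rw [div_pow, hy', hβ, div_self hb0]
        obtain ⟨i, -, hi⟩ := hζ'.eq_pow_of_pow_eq_one h1
        have h2 : y = (algebraMap N Qbar ζ) ^ i * β := by
          rw [hi, div_mul_cancel₀ _ hβ0]
        rw [h2, map_mul, map_pow, hg.1, hgβ]
      intro z
      exact congrArg (fun φ : N' →ₐ[N] Qbar => φ z) hext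
    have hu : Unram N (plOf N' 𝒜 h) := (unram_plOf_iff h).mpr hle
    have h1 := ord_algebraMap_of_unram (above_plOf_plOf h N') hu (b : N)
    have h2 : algebraMap N N' (b : N) = (⟨β, hβmem⟩ : N') ^ p := by
      apply Subtype.ext
      change algebraMap N Qbar (b : N) = β ^ p
      exact hβ.symm
    rw [h2, ord_pow] at h1
    exact ⟨_, h1.symm⟩

end Fermat.Agent.PT

end
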