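/-
S55 (Poitou-Tate), block HENS: bridge for local norms.  `N'/N` cyclic of degree `p`, `ζ_p ∈ N`,
`𝒜` a finite place of `Qbar` which is NOT split in `N'/N`, `σ ∈ Gal(Qbar/N) ∩ D_𝒜` nontrivial on `N'`:
`b ∈ N(N'^×)·LP_v  ↔  b = ∏_{i<p} σ^i β` for some `β` in the henselisation `kh N' 𝒜`.
-/
import Fermat.Agent.PT.Hens.LPBridge

set_option autoImplicit false

open NumberField IsDedekindDomain Fermat.Agent.CFT

noncomputable section

namespace Fermat.Agent.PT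

namespace NormBridge

/-- product over a cyclic group of prime order -/
theorem prod_univ_eq_prod_range {G : Type*} [Group G] [Fintype G] {p : ℕ}
    (hcard : Nat.card G = p) {τ : G} (hτ : ∀ σ : G, σ ∈ Subgroup.zpowers τ)
    {M : Type*} [CommMonoid M] (f : G → M) : ∏ σ : G, f σ = ∏ i ∈ Finset.range p, f (τ ^ i) := by
  classical
  have hord : orderOf τ = p := by rw [orderOf_eq_card_of_forall_mem_zpowers hτ, hcard]
  symm
  refine Finset.prod_nbij (fun i => τ ^ i) (fun _ _ => Finset.mem_univ _) ?_ ?_ (fun _ _ => rfl)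
  · intro i hi j hj hij
    have hi' : i < orderOf τ := by rw [hord]; exact Finset.mem_range.mp hi
    have hj' : j < orderOf τ := by rw [hord]; exact Finset.mem_range.mp hj
    exact pow_injOn_Iio_orderOf hi' hj' hij
  · intro σ _
    have h1 := hτ σ
    rw [← mem_powers_iff_mem_zpowers, mem_powers_iff_mem_range_orderOf] at h1
    obtain ⟨i, hi, hi'⟩ := Finset.mem_image.mp h1
    rw [hord] at hi
    exact ⟨i, hi, hi'⟩

/-- a product of elements close to `1` is close to `1`. -/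
theorem prod_close {𝒜 : Place} {γ : 𝒜.ValueGroup} (hγ : γ ≤ 1) (n : ℕ) (x : ℕ → Qbar)
    (hx : ∀ i < n, 𝒜.valuation (x i - 1) < γ) (hγ0 : 0 < γ) :
    𝒜.valuation (∏ i ∈ Finset.range n, x i - 1) < γ := by
  induction n with
  | zero => simpa using hγ0
  | succ n ih =>
    have h1 := ih fun i hi => hx i (Nat.lt_succ_of_lt hi)
    have h2 := hx n (Nat.lt_succ_self n)
    rw [Finset.prod_range_succ]
    set a := ∏ i ∈ Finset.range n, x i
    set b := x n
    have hb : 𝒜.valuation b ≤ 1 := by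
      have : b = (b - 1) + 1 := by ring
      rw [this]
      refine (𝒜.valuation.map_add _ _).trans (max_le (h2.le.trans hγ) ?_)
      rw [map_one]
    have h3 : a * b - 1 = (a - 1) * b + (b - 1) := by ring
    rw [h3]
    refine lt_of_le_of_lt (𝒜.valuation.map_add _ _) (max_lt ?_ h2)
    rw [map_mul]
    calc 𝒜.valuation (a - 1) * 𝒜.valuation b ≤ 𝒜.valuation (a - 1) * 1 := by gcongr
      _ = 𝒜.valuation (a - 1) := mul_one _
      _ < γ := h1

end NormBridge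

variable {N : Type*} [Field N] [NumberField N] [Algebra N Qbar]
  {N' : Type*} [Field N'] [NumberField N'] [Algebra N' Qbar] [Algebra N N']
  [IsScalarTower N N' Qbar] [IsGalois N N'] {𝒜 : Place} (h : 𝒜.IsFin)
  {p : ℕ} [Fact p.Prime] {ζ : N}

omit [Algebra N Qbar] [Algebra N' Qbar] [IsScalarTower N N' Qbar] [Fact (Nat.Prime p)] in
theorem NormBridge.card_gal (hdeg : Module.finrank N N' = p) : Nat.card (N' ≃ₐ[N] N') = p := by
  rw [IsGalois.card_aut_eq_finrank, hdeg]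

omit [NumberField N'] in
theorem NormBridge.res_ne_one {σ : GQ} (hσ : σ ∈ Vof N) (hσ' : σ ∉ Vof N') :
    resHom N N' ⟨σ, hσ⟩ ≠ 1 := fun h1 => hσ' ((resHom_eq_one_iff _).mp h1)

omit [NumberField N'] in
theorem NormBridge.pow_spec {σ : GQ} (hσ : σ ∈ Vof N) (i : ℕ) (z : N') :
    algebraMap N' Qbar ((resHom N N' ⟨σ, hσ⟩ ^ i) z) = (σ ^ i) (algebraMap N' Qbar z) := by
  rw [← map_pow, resHom_spec]
  rfl

/-- The global norm is the product over the powers of `σ`. -/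
theorem algebraMap_norm_eq_prod (hdeg : Module.finrank N N' = p) {σ : GQ} (hσ : σ ∈ Vof N)
    (hσ' : σ ∉ Vof N') (z : N') :
    algebraMap N Qbar (Algebra.norm N z) = ∏ i ∈ Finset.range p, (σ ^ i) (algebraMap N' Qbar z) := by
  classical
  have hfin : FiniteDimensional N N' :=
    Module.finite_of_finrank_pos (by rw [hdeg]; exact (Fact.out : p.Prime).pos)
  have hcard := NormBridge.card_gal (N := N) (N' := N') hdeg
  have hs := NormBridge.res_ne_one hσ hσ'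
  rw [IsScalarTower.algebraMap_apply N N' Qbar, Algebra.norm_eq_prod_automorphisms,
    NormBridge.prod_univ_eq_prod_range hcard (fun t => mem_zpowers_of_prime_card hcard hs), map_prod]
  exact Finset.prod_congr rfl fun i _ => NormBridge.pow_spec hσ i z

/-- `σ` maps `kh N' 𝒜` to itself. -/
theorem apply_mem_kh_of_mem {σ : GQ} (hσ : σ ∈ Vof N ⊓ Dec 𝒜) {β : Qbar} (hβ : β ∈ kh N' 𝒜) :
    σ β ∈ kh N' 𝒜 := by
  rw [mem_kh] at hβ ⊢
  intro t ht
  have h1 : σ⁻¹ * t * σ ∈ Vof N' ⊓ Dec 𝒜 := by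
    refine ⟨?_, (Dec 𝒜).mul_mem ((Dec 𝒜).mul_mem ((Dec 𝒜).inv_mem hσ.2) ht.2) hσ.2⟩
    intro z
    have h2 : σ (algebraMap N' Qbar z) = algebraMap N' Qbar (resHom N N' ⟨σ, hσ.1⟩ z) :=
      (resHom_spec (⟨σ, hσ.1⟩ : Vof N) z).symm
    rw [AlgEquiv.mul_apply, AlgEquiv.mul_apply, h2, ht.1 _, ← h2]
    change σ.symm (σ _) = _
    exact σ.symm_apply_apply _
  have h3 := hβ _ h1
  rw [AlgEquiv.mul_apply, AlgEquiv.mul_apply] at h3
  have h4 := congrArg σ h3
  change σ (σ.symm _) = _ at h4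
  rwa [σ.apply_symm_apply] at h4

theorem NormBridge.pow_apply_mem_kh {σ : GQ} (hσ : σ ∈ Vof N ⊓ Dec 𝒜) {β : Qbar}
    (hβ : β ∈ kh N' 𝒜) (i : ℕ) : (σ ^ i) β ∈ kh N' 𝒜 :=
  apply_mem_kh_of_mem (N := N) ((Vof N ⊓ Dec 𝒜).pow_mem hσ i) hβ

theorem NormBridge.pow_p_mem (hdeg : Module.finrank N N' = p) {σ : GQ} (hσ : σ ∈ Vof N ⊓ Dec 𝒜) :
    σ ^ p ∈ Vof N' ⊓ Dec 𝒜 := by
  refine ⟨?_, (Dec 𝒜).pow_mem hσ.2 p⟩
  have h1 : resHom N N' ((⟨σ, hσ.1⟩ : Vof N) ^ p) = 1 := by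
    rw [map_pow, ← NormBridge.card_gal (N := N) (N' := N') hdeg]
    exact pow_card_eq_one'
  exact (resHom_eq_one_iff _).mp h1

theorem NormBridge.apply_prod (hdeg : Module.finrank N N' = p) {σ : GQ} (hσ : σ ∈ Vof N ⊓ Dec 𝒜)
    {β : Qbar} (hβ : β ∈ kh N' 𝒜) :
    σ (∏ i ∈ Finset.range p, (σ ^ i) β) = ∏ i ∈ Finset.range p, (σ ^ i) β := by
  by_cases hβ0 : β = 0
  · simp [hβ0]
  have hp : (σ ^ p) β = β := (mem_kh.mp hβ) _ (NormBridge.pow_p_mem hdeg hσ)
  have h1 := Finset.prod_range_succ (fun i => (σ ^ i) β) p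
  have h2 := Finset.prod_range_succ' (fun i => (σ ^ i) β) p
  rw [h1] at h2
  simp only [hp, pow_zero, AlgEquiv.one_apply] at h2
  have h3 := mul_right_cancel₀ hβ0 h2
  rw [map_prod, h3]
  refine Finset.prod_congr rfl fun i _ => ?_
  rw [pow_succ', AlgEquiv.mul_apply]

/-- the local norm of an element of `kh N' 𝒜` lies in `kh N 𝒜`. -/
theorem prod_mem_kh (hdeg : Module.finrank N N' = p) {σ : GQ} (hσ : σ ∈ Vof N ⊓ Dec 𝒜)
    (hσ' : σ ∉ Vof N') {β : Qbar} (hβ : β ∈ kh N' 𝒜) :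
    ∏ i ∈ Finset.range p, (σ ^ i) β ∈ kh N 𝒜 := by
  set P := ∏ i ∈ Finset.range p, (σ ^ i) β with hP
  have hPmem : P ∈ kh N' 𝒜 :=
    (kh N' 𝒜).prod_mem fun i _ => NormBridge.pow_apply_mem_kh (N := N) hσ hβ i
  have hσP : σ P = P := NormBridge.apply_prod hdeg hσ hβ
  have hσj : ∀ j : ℕ, (σ ^ j) P = P := by
    intro j
    induction j with
    | zero => simp
    | succ j ih => rw [pow_succ, AlgEquiv.mul_apply, hσP, ih]
  rw [mem_kh]
  intro g hg
  have hcard := NormBridge.card_gal (N := N) (N' := N') hdeg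
  have hs := NormBridge.res_ne_one hσ.1 hσ'
  obtain ⟨j, hj⟩ : resHom N N' ⟨g, hg.1⟩ ∈ Submonoid.powers (resHom N N' ⟨σ, hσ.1⟩) :=
    mem_powers_of_prime_card hcard hs
  have ht : (σ ^ j)⁻¹ * g ∈ Vof N' ⊓ Dec 𝒜 := by
    refine ⟨?_, (Dec 𝒜).mul_mem ((Dec 𝒜).inv_mem ((Dec 𝒜).pow_mem hσ.2 j)) hg.2⟩
    have h1 : resHom N N' (((⟨σ, hσ.1⟩ : Vof N) ^ j)⁻¹ * ⟨g, hg.1⟩) = 1 := by
      rw [map_mul, map_inv, map_pow, ← hj]
      simp
    exact (resHom_eq_one_iff _).mp h1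
  have h2 := (mem_kh.mp hPmem) _ ht
  rw [AlgEquiv.mul_apply] at h2
  have h3 := congrArg (σ ^ j) h2
  rw [hσj] at h3
  have h4 : (σ ^ j) ((σ ^ j)⁻¹ (g P)) = g P := (σ ^ j).apply_symm_apply (g P)
  exact h4.symm.trans h3

/-- **Norm bridge.** -/
theorem mem_norm_sup_LP_iff (hζ : IsPrimitiveRoot ζ p) (hdeg : Module.finrank N N' = p) {σ : GQ}
    (hσ : σ ∈ Vof N ⊓ Dec 𝒜) (hσ' : σ ∉ Vof N') (b : Nˣ) :
    b ∈ (Units.map (Algebra.norm N : N' →* N)).range ⊔ LP p ζ (plOf N 𝒜 h) ↔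
      ∃ β ∈ kh N' 𝒜, ∏ i ∈ Finset.range p, (σ ^ i) β = algebraMap N Qbar b := by
  constructor
  · intro hb
    obtain ⟨n, ⟨z, rfl⟩, l, hl, rfl⟩ := Subgroup.mem_sup.mp hb
    obtain ⟨y, hy, hyp⟩ := (mem_LP_plOf_iff h hζ l).mp hl
    refine ⟨algebraMap N' Qbar z * y,
      (kh N' 𝒜).mul_mem (algebraMap_mem_kh (z : N')) (kh_le_of_tower N' hy), ?_⟩
    have h1 : ∀ i ∈ Finset.range p, (σ ^ i) (algebraMap N' Qbar z * y)
        = (σ ^ i) (algebraMap N' Qbar z) * y := by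
      intro i _
      rw [map_mul, (mem_kh.mp hy) _ ((Vof N ⊓ Dec 𝒜).pow_mem hσ i)]
    rw [Finset.prod_congr rfl h1, Finset.prod_mul_distrib, ← algebraMap_norm_eq_prod hdeg hσ.1 hσ',
      Finset.prod_const, Finset.card_range, hyp]
    simp
  · rintro ⟨β, hβ, hprod⟩
    have hb0 : algebraMap N Qbar b ≠ 0 := (map_ne_zero _).mpr b.ne_zero
    have hp0 : 0 < p := (Fact.out : p.Prime).pos
    have hβ0 : β ≠ 0 := by
      rintro rfl
      apply hb0
      rw [← hprod]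
      exact Finset.prod_eq_zero (Finset.mem_range.mpr hp0) (by simp)
    have hc := LPBridge.c_ne_zero (N := N) hζ
    obtain ⟨z, hz⟩ := exists_div_close_of_mem_kh h hβ hβ0 hc
    set x := β / algebraMap N' Qbar z with hx
    have h1 : ∀ i < p, 𝒜.valuation ((σ ^ i) x - 1)
        < 𝒜.valuation ((1 - algebraMap N Qbar ζ) ^ p) := by
      intro i _
      have h2 : (σ ^ i) x - 1 = (σ ^ i) (x - 1) := by rw [map_sub, map_one]
      rw [h2, valuation_apply_of_mem_Dec ((Dec 𝒜).pow_mem hσ.2 i)]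
      exact hz
    have h3 := NormBridge.prod_close (LPBridge.c_valuation_le_one 𝒜 hζ) p (fun i => (σ ^ i) x) h1
      (zero_lt_iff.mpr ((Valuation.ne_zero_iff _).mpr hc))
    have h4 : ∏ i ∈ Finset.range p, (σ ^ i) x
        = algebraMap N Qbar ((b * (Units.map (Algebra.norm N : N' →* N) z)⁻¹ : Nˣ) : N) := by
      simp only [hx, map_div₀, Finset.prod_div_distrib, hprod,
        ← algebraMap_norm_eq_prod hdeg hσ.1 hσ']
      simp [div_eq_mul_inv]
    rw [h4, ← mem_PU_plOf_iff h hζ] at h3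
    have h5 : b = Units.map (Algebra.norm N : N' →* N) z
        * (b * (Units.map (Algebra.norm N : N' →* N) z)⁻¹) := by
      rw [mul_comm b, mul_inv_cancel_left]
    rw [h5]
    refine Subgroup.mul_mem_sup ⟨z, rfl⟩ ?_
    unfold LP
    exact Subgroup.mem_sup_left h3

end Fermat.Agent.PT

end
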