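/-
S55 (Poitou-Tate), block HENS: Hensel's lemma (simple root form) in the fixed field of any subgroup
`W ≤ Dec 𝒜` ("the root closest to the approximate root is unique, hence fixed by `W`").
-/
import Fermat.Agent.PT.Hens.Val

set_option autoImplicit false

open Polynomial

noncomputable section

namespace Fermat.Agent.PT

variable {𝒜 : Place} {W : Subgroup GQ}

/-- abstract uniqueness in a local domain. -/
theorem HenselRoot.unique_local {R : Type*} [CommRing R] [IsDomain R] [IsLocalRing R] (F : R[X])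
    {a y y' : R} (h1 : F.derivative.eval a ∉ IsLocalRing.maximalIdeal R)
    (hy : F.eval y = 0) (hy' : F.eval y' = 0) (hya : y - a ∈ IsLocalRing.maximalIdeal R)
    (hya' : y' - a ∈ IsLocalRing.maximalIdeal R) : y = y' := by
  obtain ⟨k, hk⟩ := F.binomExpansion y (y' - y)
  rw [add_sub_cancel, hy', hy, zero_add] at hk
  have hδ : y' - y ∈ IsLocalRing.maximalIdeal R := by
    have : y' - y = (y' - a) - (y - a) := by ring
    rw [this]
    exact Ideal.sub_mem _ hya' hya
  have hd : F.derivative.eval y ∉ IsLocalRing.maximalIdeal R := by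
    intro h
    apply h1
    have h2 : F.derivative.eval y - F.derivative.eval a ∈ IsLocalRing.maximalIdeal R :=
      Ideal.mem_of_dvd _ (Polynomial.sub_dvd_eval_sub y a F.derivative) hya
    have : F.derivative.eval a = F.derivative.eval y -
        (F.derivative.eval y - F.derivative.eval a) := by ring
    rw [this]
    exact Ideal.sub_mem _ h h2
  have hu : F.derivative.eval y + k * (y' - y) ≠ 0 := by
    intro h
    apply hd
    have : F.derivative.eval y = -(k * (y' - y)) := eq_neg_of_add_eq_zero_left h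
    rw [this]
    exact Ideal.neg_mem_iff _ |>.2 (Ideal.mul_mem_left _ _ hδ)
  have hprod : (y' - y) * (F.derivative.eval y + k * (y' - y)) = 0 := by
    rw [hk]
    ring
  rcases mul_eq_zero.1 hprod with h | h
  · exact (sub_eq_zero.1 h).symm
  · exact absurd h hu

/-- Uniqueness in the simple root form. -/
theorem root_unique_of_simple {f : Qbar[X]} (hf : f.Monic) (hcoeff : ∀ i, f.coeff i ∈ 𝒜) {a : Qbar}
    (ha : a ∈ 𝒜) (h1 : 𝒜.valuation (f.derivative.eval a) = 1) {y y' : Qbar}
    (hy : f.eval y = 0) (hy' : f.eval y' = 0) (hya : 𝒜.valuation (y - a) < 1)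
    (hya' : 𝒜.valuation (y' - a) < 1) : y = y' := by
  have hlift : f ∈ Polynomial.lifts 𝒜.subtype := by
    rw [Polynomial.lifts_iff_coeff_lifts]
    intro n
    exact ⟨⟨f.coeff n, hcoeff n⟩, rfl⟩
  obtain ⟨F, hF'⟩ := hlift
  have hF : F.map 𝒜.subtype = f := hF'
  have hmem : ∀ z : Qbar, 𝒜.valuation (z - a) < 1 → z ∈ 𝒜 := by
    intro z hz
    have h2 : z - a ∈ 𝒜 := (𝒜.valuation_le_one_iff _).1 hz.le
    have : z = (z - a) + a := by ring
    rw [this]
    exact 𝒜.add_mem _ _ h2 ha
  have heval : ∀ (G : (𝒜 : Type)[X]) (z : 𝒜), (G.map 𝒜.subtype).eval (z : Qbar) =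
      ((G.eval z : 𝒜) : Qbar) := by
    intro G z
    rw [Polynomial.eval_map]
    exact Polynomial.eval₂_at_apply 𝒜.subtype z
  have key := HenselRoot.unique_local F (a := ⟨a, ha⟩) (y := ⟨y, hmem y hya⟩)
    (y' := ⟨y', hmem y' hya'⟩) ?_ ?_ ?_ ?_ ?_
  · exact congrArg Subtype.val key
  · rw [𝒜.valuation_lt_one_iff, ← heval, ← Polynomial.derivative_map, hF]
    show ¬ 𝒜.valuation (f.derivative.eval a) < 1
    rw [h1]
    exact lt_irrefl _
  · apply Subtype.ext
    rw [← heval, hF]
    exact hy
  · apply Subtype.ext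
    rw [← heval, hF]
    exact hy'
  · rw [𝒜.valuation_lt_one_iff]
    exact hya
  · rw [𝒜.valuation_lt_one_iff]
    exact hya'

/-- a product of elements of valuation `≥ 1` has valuation `≥ 1`. -/
theorem HenselRoot.one_le_valuation_prod (s : Multiset Qbar)
    (h : ∀ x ∈ s, 1 ≤ 𝒜.valuation x) : 1 ≤ 𝒜.valuation s.prod := by
  induction s using Multiset.induction_on with
  | empty => simp
  | cons x s ih =>
    rw [Multiset.prod_cons, map_mul]
    exact one_le_mul_of_one_le_of_one_le (h x (Multiset.mem_cons_self x s))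
      (ih fun z hz => h z (Multiset.mem_cons_of_mem hz))

/-- **Hensel, simple root form.**  `f` monic with coefficients in `𝒜 ∩ Qbar^W`, `a ∈ 𝒜 ∩ Qbar^W` with
`|f(a)| < 1` and `|f'(a)| = 1`: there is a root `y ∈ Qbar^W` of `f` with `|y - a| < 1`. -/
theorem exists_root_of_simple (hW : W ≤ Dec 𝒜) {f : Qbar[X]} (hf : f.Monic)
    (hcoeff : ∀ i, f.coeff i ∈ 𝒜 ∧ f.coeff i ∈ IntermediateField.fixedField W) {a : Qbar}
    (ha : a ∈ 𝒜) (haW : a ∈ IntermediateField.fixedField W)
    (h0 : 𝒜.valuation (f.eval a) < 1) (h1 : 𝒜.valuation (f.derivative.eval a) = 1) :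
    ∃ y ∈ IntermediateField.fixedField W, f.eval y = 0 ∧ 𝒜.valuation (y - a) < 1 := by
  have hsplit : f.Splits := IsAlgClosed.splits f
  have hprod := hsplit.eval_eq_prod_roots_of_monic hf a
  obtain ⟨y, hyroot, hylt⟩ : ∃ y ∈ f.roots, 𝒜.valuation (a - y) < 1 := by
    by_contra hcon
    push Not at hcon
    have h2 : 1 ≤ 𝒜.valuation (f.roots.map (a - ·)).prod := by
      apply HenselRoot.one_le_valuation_prod
      intro x hx
      obtain ⟨z, hz, rfl⟩ := Multiset.mem_map.1 hx
      exact hcon z hz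
    rw [← hprod] at h2
    exact absurd h0 (not_lt.2 h2)
  have hy0 : f.eval y = 0 := (Polynomial.mem_roots'.1 hyroot).2
  have hya : 𝒜.valuation (y - a) < 1 := by
    rw [← neg_sub, Valuation.map_neg]
    exact hylt
  refine ⟨y, ?_, hy0, hya⟩
  rw [IntermediateField.mem_fixedField_iff]
  intro g hg
  have hgf : f.map (g : Qbar →+* Qbar) = f := by
    ext i
    rw [Polynomial.coeff_map]
    exact (IntermediateField.mem_fixedField_iff _ _).1 (hcoeff i).2 g hg
  have hga : g a = a := (IntermediateField.mem_fixedField_iff _ _).1 haW g hg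
  have hgy0 : f.eval (g y) = 0 := by
    have h3 : (f.map (g : Qbar →+* Qbar)).eval ((g : Qbar →+* Qbar) y) =
        (g : Qbar →+* Qbar) (f.eval y) := by
      rw [Polynomial.eval_map]
      exact Polynomial.eval₂_at_apply _ y
    rw [hgf, hy0, map_zero] at h3
    exact h3
  have hgya : 𝒜.valuation (g y - a) < 1 := by
    have : g y - a = g (y - a) := by rw [map_sub, hga]
    rw [this, valuation_apply_of_mem_Dec (hW hg)]
    exact hya
  exact root_unique_of_simple hf (fun i => (hcoeff i).1) ha h1 hgy0 hy0 hgya hya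

end Fermat.Agent.PT

end
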