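/-
S55 (Poitou-Tate), block HENS: the normalised additive valuation `ordh N 𝒜` on the henselisation
`kh N 𝒜`, extending `CFT.ord (plOf N 𝒜)`.
-/
import Fermat.Agent.PT.Hens.Kummer

set_option autoImplicit false

open NumberField IsDedekindDomain Fermat.Agent.CFT

noncomputable section

namespace Fermat.Agent.PT

variable (N : Type*) [Field N] [NumberField N] [Algebra N Qbar] {𝒜 : Place} (h : 𝒜.IsFin)

open Classical in
/-- The normalised valuation of `kh N 𝒜` (junk value `0` at `0` and outside `kh N 𝒜`). -/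
def ordh (x : Qbar) : ℤ :=
  if hx : x ∈ kh N 𝒜 ∧ x ≠ 0 then
    ord (plOf N 𝒜 h) ((Classical.choose (exists_valuation_eq_of_mem_kh (N := N) h hx.1 hx.2) : Nˣ) : N)
  else 0

variable {N}

/-- characterisation of `ordh`. -/
theorem ordh_eq_of_valuation_eq {x : Qbar} (hx : x ∈ kh N 𝒜) {y : N} (hy : y ≠ 0)
    (hxy : 𝒜.valuation x = 𝒜.valuation (algebraMap N Qbar y)) :
    ordh N h x = ord (plOf N 𝒜 h) y := by
  have hy' : algebraMap N Qbar y ≠ 0 := (map_ne_zero _).mpr hy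
  have hx0 : x ≠ 0 := by
    rw [← Valuation.ne_zero_iff 𝒜.valuation, hxy]
    exact (Valuation.ne_zero_iff _).mpr hy'
  unfold ordh
  rw [dif_pos ⟨hx, hx0⟩]
  have hspec := Classical.choose_spec (exists_valuation_eq_of_mem_kh (N := N) h hx hx0)
  rw [ord_plOf_eq_iff h (Units.ne_zero _) hy, ← hspec, hxy]

theorem Ordh.exists_rep {x : Qbar} (hx : x ∈ kh N 𝒜) (hx0 : x ≠ 0) :
    ∃ y : N, y ≠ 0 ∧ 𝒜.valuation x = 𝒜.valuation (algebraMap N Qbar y) ∧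
      ordh N h x = ord (plOf N 𝒜 h) y := by
  obtain ⟨y, hy⟩ := exists_valuation_eq_of_mem_kh (N := N) h hx hx0
  exact ⟨y, y.ne_zero, hy, ordh_eq_of_valuation_eq h hx y.ne_zero hy⟩

theorem Ordh.ordh_zero : ordh N h 0 = 0 := by
  unfold ordh
  rw [dif_neg (fun hh => hh.2 rfl)]

theorem ordh_algebraMap (y : N) : ordh N h (algebraMap N Qbar y) = ord (plOf N 𝒜 h) y := by
  rcases eq_or_ne y 0 with rfl | hy
  · rw [map_zero, Ordh.ordh_zero, ord_zero]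
  · exact ordh_eq_of_valuation_eq h (algebraMap_mem_kh y) hy rfl

theorem ordh_mul {x y : Qbar} (hx : x ∈ kh N 𝒜) (hy : y ∈ kh N 𝒜) (hx0 : x ≠ 0) (hy0 : y ≠ 0) :
    ordh N h (x * y) = ordh N h x + ordh N h y := by
  obtain ⟨a, ha0, ha, ha'⟩ := Ordh.exists_rep h hx hx0
  obtain ⟨b, hb0, hb, hb'⟩ := Ordh.exists_rep h hy hy0
  rw [ha', hb', ← ord_mul _ ha0 hb0]
  refine ordh_eq_of_valuation_eq h ((kh N 𝒜).mul_mem hx hy) (mul_ne_zero ha0 hb0) ?_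
  rw [map_mul, map_mul, map_mul, ha, hb]

theorem ordh_inv {x : Qbar} (hx : x ∈ kh N 𝒜) : ordh N h x⁻¹ = - ordh N h x := by
  rcases eq_or_ne x 0 with rfl | hx0
  · rw [inv_zero, Ordh.ordh_zero, neg_zero]
  obtain ⟨a, ha0, ha, ha'⟩ := Ordh.exists_rep h hx hx0
  rw [ha', ← ord_inv]
  refine ordh_eq_of_valuation_eq h ((kh N 𝒜).inv_mem hx) (inv_ne_zero ha0) ?_
  rw [map_inv₀, map_inv₀, map_inv₀, ha]

theorem ordh_pow {x : Qbar} (hx : x ∈ kh N 𝒜) (n : ℕ) : ordh N h (x ^ n) = n * ordh N h x := by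
  rcases eq_or_ne x 0 with rfl | hx0
  · rcases eq_or_ne n 0 with rfl | hn
    · have h1 := ordh_algebraMap (N := N) h 1
      rw [map_one, ord_one] at h1
      rw [pow_zero, h1]
      simp
    · rw [zero_pow hn, Ordh.ordh_zero, mul_zero]
  obtain ⟨a, ha0, ha, ha'⟩ := Ordh.exists_rep h hx hx0
  rw [ha', ← ord_pow]
  refine ordh_eq_of_valuation_eq h (pow_mem hx n) (pow_ne_zero n ha0) ?_
  rw [map_pow, map_pow, map_pow, ha]

theorem ordh_le_iff {x y : Qbar} (hx : x ∈ kh N 𝒜) (hy : y ∈ kh N 𝒜) (hx0 : x ≠ 0) (hy0 : y ≠ 0) :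
    ordh N h x ≤ ordh N h y ↔ 𝒜.valuation y ≤ 𝒜.valuation x := by
  obtain ⟨a, ha0, ha, ha'⟩ := Ordh.exists_rep h hx hx0
  obtain ⟨b, hb0, hb, hb'⟩ := Ordh.exists_rep h hy hy0
  rw [ha', hb', ha, hb, ord_plOf_le_iff h ha0 hb0]

theorem ordh_nonneg_iff {x : Qbar} (hx : x ∈ kh N 𝒜) (hx0 : x ≠ 0) : 0 ≤ ordh N h x ↔ x ∈ 𝒜 := by
  obtain ⟨a, ha0, ha, ha'⟩ := Ordh.exists_rep h hx hx0
  rw [ha', ord_plOf_nonneg_iff h ha0, ← 𝒜.valuation_le_one_iff, ← 𝒜.valuation_le_one_iff, ha]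

theorem ordh_pos_iff {x : Qbar} (hx : x ∈ kh N 𝒜) (hx0 : x ≠ 0) :
    0 < ordh N h x ↔ x ∈ 𝒜.nonunits := by
  obtain ⟨a, ha0, ha, ha'⟩ := Ordh.exists_rep h hx hx0
  rw [ha', ord_plOf_pos_iff h ha0, ValuationSubring.mem_nonunits_iff, ValuationSubring.mem_nonunits_iff,
    ha]

theorem exists_ordh_eq_one : ∃ π : N, ordh N h (algebraMap N Qbar π) = 1 := by
  obtain ⟨π, hπ⟩ := exists_uniformizer (plOf N 𝒜 h)
  exact ⟨π, by rw [ordh_algebraMap, hπ]⟩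

/-- **Tame Kummer bridge for the henselisation.** -/
theorem dvd_ordh_iff {p : ℕ} [Fact p.Prime] {ζ : N} (hζ : IsPrimitiveRoot ζ p)
    (hp : ¬ 𝒜.LiesOverPrime p) {x : Qbar} (hx : x ∈ kh N 𝒜) (hx0 : x ≠ 0) {β : Qbar}
    (hβ : β ^ p = x) : (p : ℤ) ∣ ordh N h x ↔ ∀ g ∈ Vof N ⊓ Ine 𝒜, g β = β := by
  obtain ⟨b, y, hy, hxy⟩ := exists_eq_mul_pow_of_mem_kh h hζ hx hx0
  have hb0 : algebraMap N Qbar (b : N) ≠ 0 := (map_ne_zero _).mpr b.ne_zero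
  have hy0 : y ≠ 0 := by
    rintro rfl
    have hp0 : p ≠ 0 := (Fact.out : p.Prime).ne_zero
    rw [zero_pow hp0, mul_zero] at hxy
    exact hx0 hxy
  have hord : ordh N h x = ord (plOf N 𝒜 h) (b : N) + p * ordh N h y := by
    rw [hxy, ordh_mul h (algebraMap_mem_kh _) (pow_mem hy p) hb0 (pow_ne_zero p hy0),
      ordh_algebraMap, ordh_pow h hy]
  have hroot : (β / y) ^ p = algebraMap N Qbar (b : N) := by
    rw [div_pow, hβ, hxy, mul_div_assoc, div_self (pow_ne_zero p hy0), mul_one]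
  have hfix : ∀ g ∈ Vof N ⊓ Ine 𝒜, g y = y := fun g hg =>
    mem_kh.mp hy g ⟨hg.1, Ine_le_Dec 𝒜 hg.2⟩
  rw [hord, Int.dvd_add_left (Dvd.intro _ rfl), dvd_ord_plOf_iff h hζ hp b hroot]
  refine forall₂_congr fun g hg => ?_
  rw [map_div₀, hfix g hg, div_left_inj' hy0]

end Fermat.Agent.PT

end
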