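/-
S55 (Poitou-Tate), block HENS: the local norm index `= p` and the existence of non `p`-th powers,
in the language of subgroups of `GQ` ("local groups" `E ≤ Dec 𝒜 ⊓ G1 p`, relatively open in `Dec 𝒜`).

Route: a character `x` of a local group `E` is automatically a character of the OPEN subgroup
`V = E ⊔ U` (`U` a small level), and `V ⊓ Dec 𝒜 = E`.  Then `exists_fields_of_char`,
`Arith.index_NL_eq`, `mem_norm_sup_LP_iff`, `exists_eq_mul_pow_of_mem_kh`.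
-/
import Fermat.Agent.PT.HP.Fields
import Fermat.Agent.PT.Hens.NormBridge
import Fermat.Agent.PT.Hens.Ordh
import Fermat.Agent.PT.Arith.HNTGen
import Fermat.Agent.PT.B.CycNorm
import Fermat.Agent.PT.Coh.Dict

set_option autoImplicit false

open NumberField IsDedekindDomain Fermat.Agent.CFT

noncomputable section

namespace Fermat.Agent.PT

variable {p : ℕ} [Fact p.Prime]

namespace NormIndex

/-- the subgroup of left translations preserving `x` -/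
def stab (x : GQ → GQ → ZMod p) : Subgroup GQ where
  carrier := {g | ∀ g₀ g₁, x (g * g₀) (g * g₁) = x g₀ g₁}
  one_mem' := fun g₀ g₁ => by rw [one_mul, one_mul]
  mul_mem' := fun {a b} ha hb g₀ g₁ => by rw [mul_assoc, mul_assoc, ha, hb]
  inv_mem' := fun {a} ha g₀ g₁ => by
    have h := ha (a⁻¹ * g₀) (a⁻¹ * g₁)
    rw [mul_inv_cancel_left, mul_inv_cancel_left] at h
    exact h.symm

/-- three levels have a common lower bound -/
theorem exists_level_le₃ {U₁ U₂ U₃ : Subgroup GQ} (h₁ : U₁ ∈ Lall) (h₂ : U₂ ∈ Lall)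
    (h₃ : U₃ ∈ Lall) : ∃ U ∈ Lall, U ≤ U₁ ∧ U ≤ U₂ ∧ U ≤ U₃ := by
  obtain ⟨W, hW, hW1, hW2⟩ := Lall.directed' U₁ h₁ U₂ h₂
  obtain ⟨U, hU, hU1, hU2⟩ := Lall.directed' W hW U₃ h₃
  exact ⟨U, hU, hU1.trans hW1, hU1.trans hW2, hU2⟩

end NormIndex

open NormIndex in
/-- **Globalisation of a local character.** -/
theorem exists_open_of_local_char {𝒜 : Place} {E : Subgroup GQ} (hE : E ≤ Dec 𝒜 ⊓ G1 p)
    (hop : ∃ U ∈ Lall, Dec 𝒜 ⊓ U ≤ E) {x : GQ → GQ → ZMod p}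
    (hx : x ∈ Z1 Lall E (trivZ p GQ)) :
    ∃ V : Subgroup GQ, Lall.IsOpen V ∧ V ≤ G1 p ∧ V ⊓ Dec 𝒜 = E ∧
      x ∈ Z1 Lall V (trivZ p GQ) := by
  obtain ⟨U₀, hU₀, hU₀E⟩ := hop
  obtain ⟨⟨heq, U₁, hU₁, hsm⟩, hd⟩ := mem_Z1.mp hx
  obtain ⟨U₂, hU₂, hU₂G⟩ := G1_isOpen p
  obtain ⟨U, hU, hUU₀, hUU₁, hUU₂⟩ := exists_level_le₃ hU₀ hU₁ hU₂
  have hn : U.Normal := Lall.normal' U hU
  refine ⟨E ⊔ U, ⟨U, hU, le_sup_right⟩, sup_le (hE.trans inf_le_right) (hUU₂.trans hU₂G), ?_, ?_⟩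
  · apply le_antisymm
    · rintro g ⟨hg, hgD⟩
      have hg' : g ∈ ((E ⊔ U : Subgroup GQ) : Set GQ) := hg
      rw [Subgroup.mul_normal E U] at hg'
      obtain ⟨e, he, u, hu, rfl⟩ := Set.mem_mul.mp hg'
      have heD : e ∈ Dec 𝒜 := (hE he).1
      have huD : u ∈ Dec 𝒜 := by
        have := (Dec 𝒜).mul_mem ((Dec 𝒜).inv_mem heD) hgD
        rwa [inv_mul_cancel_left] at this
      exact E.mul_mem he (hU₀E ⟨huD, hUU₀ hu⟩)
    · exact le_inf le_sup_left (hE.trans inf_le_left)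
  · have hle : E ⊔ U ≤ stab x := by
      refine sup_le ?_ ?_
      · intro e he g₀ g₁
        exact heq e he g₀ g₁
      · intro u hu g₀ g₁
        have h0 : u * g₀ = g₀ * (g₀⁻¹ * u * g₀) := by group
        have h1 : u * g₁ = g₁ * (g₁⁻¹ * u * g₁) := by group
        rw [h0, h1]
        refine hsm g₀ g₁ _ (hUU₁ ?_) _ (hUU₁ ?_)
        · have := hn.conj_mem u hu g₀⁻¹
          rwa [inv_inv] at this
        · have := hn.conj_mem u hu g₁⁻¹
          rwa [inv_inv] at this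
    exact mem_Z1.mpr ⟨⟨fun v hv g₀ g₁ => hle hv g₀ g₁, U₁, hU₁, hsm⟩, hd⟩

/-- the kernel of the globalised character -/
theorem kerOf_inf_Dec {𝒜 : Place} {E V : Subgroup GQ} (hVE : V ⊓ Dec 𝒜 = E)
    (x : GQ → GQ → ZMod p) : kerOf V x ⊓ Dec 𝒜 = kerOf E x := by
  have hle : E ≤ V := hVE ▸ inf_le_left
  rw [kerOf_of_le (x := x) hle, ← hVE]
  ext g
  simp only [Subgroup.mem_inf]
  constructor
  · rintro ⟨h1, h2⟩
    exact ⟨⟨kerOf_le V x h1, h2⟩, h1⟩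
  · rintro ⟨⟨-, h2⟩, h1⟩
    exact ⟨h1, h2⟩

/-- **Local norm index, field form.** -/
theorem norm_index_field (hp2 : p ≠ 2) {V : Subgroup GQ} (hV : Lall.IsOpen V) (hV1 : V ≤ G1 p)
    {x : GQ → GQ → ZMod p} (hx : x ∈ Z1 Lall V (trivZ p GQ)) {𝒜 : Place} (h : 𝒜.IsFin) {σ : GQ}
    (hσ : σ ∈ V ⊓ Dec 𝒜) (hσ1 : x 1 σ = 1) :
    ∃ b₀ ∈ IntermediateField.fixedField (V ⊓ Dec 𝒜), b₀ ≠ 0 ∧
      (∀ β ∈ IntermediateField.fixedField (kerOf V x ⊓ Dec 𝒜),
        ∏ i ∈ Finset.range p, (σ ^ i) β ≠ b₀) ∧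
      ∀ b ∈ IntermediateField.fixedField (V ⊓ Dec 𝒜), b ≠ 0 →
        ∃ j : ℕ, ∃ β ∈ IntermediateField.fixedField (kerOf V x ⊓ Dec 𝒜),
          b = b₀ ^ j * ∏ i ∈ Finset.range p, (σ ^ i) β := by
  have hp : p.Prime := Fact.out
  have hσker : σ ∉ kerOf V x := by
    intro h
    have h1 := ((mem_kerOf_iff hx).mp h).2
    rw [hσ1] at h1
    exact one_ne_zero h1
  have hne : kerOf V x ≠ V := fun h => hσker (by rw [h]; exact hσ.1)
  obtain ⟨K, K', hK, hK', hgal, hdeg, hVK, hVK'⟩ := exists_fields_of_char hV hx hne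
  have : NumberField K := numberField_of_finiteDimensional K
  have : NumberField K' := numberField_of_finiteDimensional' K'
  have hKV : IntermediateField.fixedField V = K := by
    rw [← hVK, Vof_intermediateField, InfiniteGalois.fixedField_fixingSubgroup]
  have hζmem : (zetaP p : Qbar) ∈ K := by
    rw [← hKV, IntermediateField.mem_fixedField_iff]
    exact (le_G1_iff p).mp hV1
  set ζ : K := ⟨(zetaP p : Qbar), hζmem⟩ with hζdef
  have hζ : IsPrimitiveRoot ζ p := by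
    have h1 : IsPrimitiveRoot ((zetaP p : Qbarˣ) : Qbar) p :=
      IsPrimitiveRoot.coe_units_iff.mpr (zetaP_spec p)
    exact IsPrimitiveRoot.of_map_of_injective (f := algebraMap K Qbar)
      (hf := (algebraMap K Qbar).injective) h1
  have hkh : IntermediateField.fixedField (V ⊓ Dec 𝒜) = kh K 𝒜 := by
    unfold kh
    rw [hVK]
  have hkh' : IntermediateField.fixedField (kerOf V x ⊓ Dec 𝒜) = kh K' 𝒜 := by
    unfold kh
    rw [hVK']
  rw [hkh, hkh']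
  have hσ' : σ ∈ Vof K ⊓ Dec 𝒜 := by rw [hVK]; exact hσ
  have hσk' : σ ∉ Vof K' := by rw [hVK']; exact hσker
  have hns : ¬ Split K' (plOf K 𝒜 h) := by
    rw [split_plOf_iff]
    intro hle
    exact hσk' (hle hσ')
  have hidx : (Arith.NL K K' p ζ (plOf K 𝒜 h)).index = p :=
    Arith.index_NL_eq p hp2 ζ hζ hdeg _ hns
  have hbridge : ∀ b : Kˣ, b ∈ Arith.NL K K' p ζ (plOf K 𝒜 h) ↔
      ∃ β ∈ kh K' 𝒜, ∏ i ∈ Finset.range p, (σ ^ i) β = algebraMap K Qbar b :=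
    fun b => mem_norm_sup_LP_iff h hζ hdeg hσ' hσk' b
  -- a non norm
  have hnetop : Arith.NL K K' p ζ (plOf K 𝒜 h) ≠ ⊤ := by
    intro htop
    rw [htop, Subgroup.index_top] at hidx
    exact hp.one_lt.ne hidx
  obtain ⟨b₀, hb₀⟩ : ∃ b₀ : Kˣ, b₀ ∉ Arith.NL K K' p ζ (plOf K 𝒜 h) := by
    by_contra hcon
    push Not at hcon
    exact hnetop (eq_top_iff.mpr fun b _ => hcon b)
  refine ⟨algebraMap K Qbar b₀, algebraMap_mem_kh _, (map_ne_zero _).mpr b₀.ne_zero, ?_, ?_⟩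
  · intro β hβ hprod
    exact hb₀ ((hbridge b₀).mpr ⟨β, hβ, hprod⟩)
  · intro b hb hb0
    obtain ⟨b₁, y, hy, hby⟩ := exists_eq_mul_pow_of_mem_kh h hζ hb hb0
    -- `b₁ = b₀ ^ j * n`, `n ∈ NL`
    have hcard : Nat.card (Kˣ ⧸ Arith.NL K K' p ζ (plOf K 𝒜 h)) = p := hidx
    have hb₀' : (QuotientGroup.mk b₀ : Kˣ ⧸ Arith.NL K K' p ζ (plOf K 𝒜 h)) ≠ 1 := by
      rw [Ne, QuotientGroup.eq_one_iff]
      exact hb₀
    obtain ⟨j, hj⟩ : (QuotientGroup.mk b₁ : Kˣ ⧸ Arith.NL K K' p ζ (plOf K 𝒜 h)) ∈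
        Submonoid.powers (QuotientGroup.mk b₀ : Kˣ ⧸ Arith.NL K K' p ζ (plOf K 𝒜 h)) :=
      mem_powers_of_prime_card hcard hb₀'
    have hn : (b₀ ^ j)⁻¹ * b₁ ∈ Arith.NL K K' p ζ (plOf K 𝒜 h) := by
      rw [← QuotientGroup.eq, QuotientGroup.mk_pow]
      exact hj
    obtain ⟨β, hβ, hprod⟩ := (hbridge _).mp hn
    have hy' : y ∈ kh K' 𝒜 := kh_le_of_tower K' hy
    have hσy : ∀ i : ℕ, (σ ^ i) y = y := by
      intro i
      exact mem_kh.mp hy _ ((Vof K ⊓ Dec 𝒜).pow_mem hσ' i)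
    refine ⟨j, β * y, (kh K' 𝒜).mul_mem hβ hy', ?_⟩
    have h1 : ∏ i ∈ Finset.range p, (σ ^ i) (β * y)
        = (∏ i ∈ Finset.range p, (σ ^ i) β) * y ^ p := by
      simp only [map_mul, hσy, Finset.prod_mul_distrib, Finset.prod_const, Finset.card_range]
    rw [h1, hprod, hby, ← mul_assoc]
    congr 1
    rw [← map_pow, ← map_mul]
    congr 1
    rw [Units.val_mul, Units.val_inv_eq_inv_val, Units.val_pow_eq_pow_val,
      mul_inv_cancel_left₀ (pow_ne_zero _ b₀.ne_zero)]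

/-- **Not every element of the henselisation is a `p`-th power, field form.** -/
theorem not_pow_field {V : Subgroup GQ} (hV : Lall.IsOpen V) {𝒜 : Place} (h : 𝒜.IsFin) :
    ∃ b ∈ IntermediateField.fixedField (V ⊓ Dec 𝒜), b ≠ 0 ∧
      ∀ c ∈ IntermediateField.fixedField (V ⊓ Dec 𝒜), c ^ p ≠ b := by
  have hp : p.Prime := Fact.out
  obtain ⟨K, hK, hKV⟩ := exists_field_of_isOpen hV
  have : NumberField K := numberField_of_finiteDimensional K
  have hVK : Vof K = V := by rw [Vof_intermediateField, hKV]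
  have hkh : IntermediateField.fixedField (V ⊓ Dec 𝒜) = kh K 𝒜 := by
    unfold kh
    rw [hVK]
  rw [hkh]
  obtain ⟨π, hπ⟩ := exists_ordh_eq_one (N := K) h
  refine ⟨algebraMap K Qbar π, algebraMap_mem_kh _, ?_, ?_⟩
  · intro h0
    rw [h0, Ordh.ordh_zero] at hπ
    exact zero_ne_one hπ
  · intro c hc hcp
    rw [← hcp, ordh_pow h hc] at hπ
    have h1 : (p : ℤ) ∣ 1 := ⟨_, hπ.symm⟩
    have h2 := Int.natCast_dvd_natCast.mp (by simpa using h1 : (p : ℤ) ∣ ((1 : ℕ) : ℤ))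
    exact hp.one_lt.ne' (Nat.dvd_one.mp h2)

/-! ### the statements in the language of `multRep` -/

theorem mem_invOf_multRep_iff {V : Subgroup GQ} {a : Additive Qbarˣ} :
    a ∈ invOf V multRep ↔
      ((Additive.toMul a : Qbarˣ) : Qbar) ∈ IntermediateField.fixedField V :=
  multRep_fixed_iff (x := Additive.toMul a)

/-- **(NI)**: local norm index `= p`. -/
theorem localNormIndex_aux (hp2 : p ≠ 2) {𝒜 : Place} (h : 𝒜.IsFin) {E : Subgroup GQ}
    (hE : E ≤ Dec 𝒜 ⊓ G1 p) (hop : ∃ U ∈ Lall, Dec 𝒜 ⊓ U ≤ E) {x : GQ → GQ → ZMod p}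
    (hx : x ∈ Z1 Lall E (trivZ p GQ)) {σ : GQ} (hσ : σ ∈ E) (hσ1 : x 1 σ = 1) :
    ∃ b₀ ∈ invOf E multRep, (∀ c ∈ invOf (kerOf E x) multRep, normOf multRep p σ c ≠ b₀) ∧
      ∀ b ∈ invOf E multRep, ∃ j : ℕ, ∃ c ∈ invOf (kerOf E x) multRep,
        b = j • b₀ + normOf multRep p σ c := by
  obtain ⟨V, hV, hV1, hVE, hxV⟩ := exists_open_of_local_char hE hop hx
  have hker := kerOf_inf_Dec hVE x
  obtain ⟨b₀, hb₀, hb₀0, hnon, hall⟩ := norm_index_field hp2 hV hV1 hxV h (hVE ▸ hσ) hσ1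
  rw [hVE] at hb₀ hall
  rw [hker] at hnon hall
  refine ⟨Additive.ofMul (Units.mk0 b₀ hb₀0), mem_invOf_multRep_iff.mpr hb₀, ?_, ?_⟩
  · intro c hc hcb
    refine hnon _ (mem_invOf_multRep_iff.mp hc) ?_
    rw [← toMul_sum_multRep]
    have := congrArg (fun a : Additive Qbarˣ => ((Additive.toMul a : Qbarˣ) : Qbar)) hcb
    exact this
  · intro b hb
    obtain ⟨j, β, hβ, hbβ⟩ := hall _ (mem_invOf_multRep_iff.mp hb) (Units.ne_zero _)
    have hβ0 : β ≠ 0 := by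
      rintro rfl
      have hp : p.Prime := Fact.out
      have h0 : ∏ i ∈ Finset.range p, (σ ^ i) (0 : Qbar) = 0 := by
        simp only [map_zero]
        exact Finset.prod_eq_zero (Finset.mem_range.mpr hp.pos) rfl
      rw [h0, mul_zero] at hbβ
      exact (Units.ne_zero _) hbβ
    refine ⟨j, Additive.ofMul (Units.mk0 β hβ0), mem_invOf_multRep_iff.mpr hβ, ?_⟩
    apply Additive.toMul.injective
    apply Units.ext
    rw [toMul_add, Units.val_mul, toMul_nsmul, Units.val_pow_eq_pow_val]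
    unfold normOf
    rw [toMul_sum_multRep]
    exact hbβ

/-- **(NP)**: not every element is a `p`-th power. -/
theorem localNotPow_aux {𝒜 : Place} (h : 𝒜.IsFin) {E : Subgroup GQ}
    (hE : E ≤ Dec 𝒜 ⊓ G1 p) (hop : ∃ U ∈ Lall, Dec 𝒜 ⊓ U ≤ E) :
    ∃ b ∈ invOf E multRep, ∀ c ∈ invOf E multRep, p • c ≠ b := by
  have h0 : (0 : GQ → GQ → ZMod p) ∈ Z1 Lall E (trivZ p GQ) := zero_mem _
  obtain ⟨V, hV, -, hVE, -⟩ := exists_open_of_local_char hE hop h0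
  obtain ⟨b, hb, hb0, hall⟩ := not_pow_field (p := p) hV h
  rw [hVE] at hb hall
  refine ⟨Additive.ofMul (Units.mk0 b hb0), mem_invOf_multRep_iff.mpr hb, ?_⟩
  intro c hc hcb
  refine hall _ (mem_invOf_multRep_iff.mp hc) ?_
  have := congrArg (fun a : Additive Qbarˣ => ((Additive.toMul a : Qbarˣ) : Qbar)) hcb
  simpa using this

end Fermat.Agent.PT

end
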