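/-
S55 (Poitou-Tate), block HENS: the two contracts of block SYM (`PT/Symb/Inst.lean`).
-/
import Fermat.Agent.PT.Symb.Inst
import Fermat.Agent.PT.Hens.NormIndex

set_option autoImplicit false

namespace Fermat.Agent.PT

variable {p : ℕ} [Fact p.Prime]

/-- (NI) -/
theorem localNormIndex (hp2 : p ≠ 2) : LocalNormIndexStatement p :=
  fun _ h _ hE _ hx _ hσ hσ1 => localNormIndex_aux hp2 h hE.1 hE.2 hx hσ hσ1

/-- (NP) -/
theorem localNotPow : LocalNotPowStatement p :=
  fun _ h _ hE => localNotPow_aux h hE.1 hE.2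

end Fermat.Agent.PT
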